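import Mathlib.RingTheory.Nullstellensatz
import Mathlib.FieldTheory.PrimitiveElement
import Mathlib.FieldTheory.AlgebraicClosure
import Mathlib.FieldTheory.IsAlgClosed.AlgebraicClosure
import Mathlib.RingTheory.Polynomial.IsIntegral

/-!
# Extension of the scalars of a prime ideal

If `k` is algebraically closed in the field of `k[Y] / I` then `I` stays prime over every field
containing `k`: over an algebraic extension by the theorem of the primitive element, beyond it by
the Nullstellensatz.
-/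

set_option autoImplicit false

noncomputable section

namespace FA.BeukersTheorem

open Finset MvPolynomial
open scoped IntermediateField

variable {k Ω : Type*} [Field k] [Field Ω] [Algebra k Ω] {σ : Type*}

/-- The ideal extended to `Ω`. -/
def extIdeal (Ω : Type*) [Field Ω] [Algebra k Ω] (I : Ideal (MvPolynomial σ k)) :
    Ideal (MvPolynomial σ Ω) :=
  I.map (MvPolynomial.map (algebraMap k Ω))

/-- A functional applied to the coefficients. -/
def projPoly (lam : Ω →ₗ[k] k) (w : MvPolynomial σ Ω) : MvPolynomial σ k :=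
  ∑ μ ∈ w.support, monomial μ (lam (w.coeff μ))

theorem coeff_projPoly (lam : Ω →ₗ[k] k) (w : MvPolynomial σ Ω) (μ : σ →₀ ℕ) :
    (projPoly lam w).coeff μ = lam (w.coeff μ) := by
  classical
  rw [projPoly, coeff_sum]
  simp only [coeff_monomial, Finset.sum_ite_eq', mem_support_iff]
  split_ifs with h
  · rfl
  · rw [not_not.1 h, map_zero]

theorem projPoly_add (lam : Ω →ₗ[k] k) (v w : MvPolynomial σ Ω) :
    projPoly lam (v + w) = projPoly lam v + projPoly lam w := by
  ext μ
  simp [coeff_projPoly]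

theorem projPoly_zero (lam : Ω →ₗ[k] k) : projPoly lam (0 : MvPolynomial σ Ω) = 0 := by
  simp [projPoly]

theorem support_projPoly (lam : Ω →ₗ[k] k) (w : MvPolynomial σ Ω) :
    (projPoly lam w).support ⊆ w.support := fun μ hμ => by
  rw [mem_support_iff, coeff_projPoly] at hμ
  exact mem_support_iff.2 fun h => hμ (by rw [h, map_zero])

theorem projPoly_map_mul (lam : Ω →ₗ[k] k) (P : MvPolynomial σ k) (w : MvPolynomial σ Ω) :
    projPoly lam (map (algebraMap k Ω) P * w) = P * projPoly lam w := by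
  classical
  ext μ
  rw [coeff_projPoly, coeff_mul, coeff_mul, map_sum]
  refine Finset.sum_congr rfl fun x _ => ?_
  rw [coeff_map, coeff_projPoly, ← Algebra.smul_def, map_smul, smul_eq_mul]

/-- Decomposition along a basis. -/
theorem exists_decomposition (w : MvPolynomial σ Ω) :
    ∃ (s : Finset (Module.Basis.ofVectorSpaceIndex k Ω)),
      w = ∑ i ∈ s, C (Module.Basis.ofVectorSpace k Ω i) *
        map (algebraMap k Ω) (projPoly ((Module.Basis.ofVectorSpace k Ω).coord i) w) := by
  classical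
  obtain ⟨b, hb⟩ : ∃ b, b = Module.Basis.ofVectorSpace k Ω := ⟨_, rfl⟩
  refine ⟨w.support.biUnion fun μ => (b.repr (w.coeff μ)).support, ?_⟩
  rw [← hb]
  ext μ
  rw [coeff_sum]
  simp only [coeff_C_mul, coeff_map, coeff_projPoly, Module.Basis.coord_apply]
  by_cases hμ : μ ∈ w.support
  · conv_lhs => rw [← b.linearCombination_repr (w.coeff μ), Finsupp.linearCombination_apply,
      Finsupp.sum]
    rw [← Finset.sum_subset (Finset.subset_biUnion_of_mem
      (fun μ => (b.repr (w.coeff μ)).support) hμ) fun i _ hi => ?_]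
    · exact Finset.sum_congr rfl fun i _ => by rw [Algebra.smul_def, mul_comm]
    · rw [Finsupp.notMem_support_iff.1 hi, map_zero, mul_zero]
  · rw [notMem_support_iff.1 hμ, Finset.sum_eq_zero fun i _ => ?_]
    simp

theorem projPoly_mem {I : Ideal (MvPolynomial σ k)} {w : MvPolynomial σ Ω}
    (hw : w ∈ extIdeal Ω I) (lam : Ω →ₗ[k] k) : projPoly lam w ∈ I := by
  suffices ∀ r, projPoly lam (r * w) ∈ I by simpa using this 1
  rw [extIdeal, Ideal.map] at hw
  induction hw using Submodule.span_induction with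
  | mem x hx =>
    obtain ⟨P, hP, rfl⟩ := hx
    intro r
    rw [mul_comm, projPoly_map_mul]
    exact I.mul_mem_right _ hP
  | zero => intro r; rw [mul_zero, projPoly_zero]; exact I.zero_mem
  | add x y _ _ hx hy => intro r; rw [mul_add, projPoly_add]; exact I.add_mem (hx r) (hy r)
  | smul a x _ hx => intro r; rw [smul_eq_mul, ← mul_assoc]; exact hx (r * a)

theorem mem_extIdeal_of_projPoly {I : Ideal (MvPolynomial σ k)} {w : MvPolynomial σ Ω}
    (hw : ∀ lam : Ω →ₗ[k] k, projPoly lam w ∈ I) : w ∈ extIdeal Ω I := by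
  obtain ⟨s, hs⟩ := exists_decomposition (k := k) w
  rw [hs]
  exact Ideal.sum_mem _ fun i _ => Ideal.mul_mem_left _ _ (Ideal.mem_map_of_mem _ (hw _))

theorem projPoly_eval (lam : Ω →ₗ[k] k) (w : MvPolynomial σ Ω) (y : σ → k) :
    lam (eval (fun i => algebraMap k Ω (y i)) w) = eval y (projPoly lam w) := by
  rw [projPoly, map_sum, eval_eq, map_sum]
  refine Finset.sum_congr rfl fun μ _ => ?_
  rw [eval_monomial, Finsupp.prod, ← Finset.prod_congr rfl fun i _ => map_pow (algebraMap k Ω) _ _,
    ← map_prod, mul_comm, ← Algebra.smul_def, map_smul, smul_eq_mul, mul_comm]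

/-- **Over an algebraically closed field primes stay prime.** -/
theorem isPrime_extIdeal_of_isAlgClosed [IsAlgClosed k] [Finite σ] {Q : Ideal (MvPolynomial σ k)}
    [Q.IsPrime] : (extIdeal Ω Q).IsPrime := by
  classical
  obtain ⟨b, hb⟩ : ∃ b, b = Module.Basis.ofVectorSpace k Ω := ⟨_, rfl⟩
  refine Ideal.isPrime_iff.2 ⟨fun h => ?_, fun {v w} hvw => ?_⟩
  · obtain ⟨i, hi⟩ : ∃ i, b.repr 1 i ≠ 0 := by
      by_contra hall
      push Not at hall
      exact one_ne_zero (α := Ω) (b.repr.injective (by ext i; simp [hall i]))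
    have h1 := projPoly_mem ((Ideal.eq_top_iff_one _).1 h) (b.coord i)
    have h2 : projPoly (b.coord i) (1 : MvPolynomial σ Ω) = C (b.repr 1 i) := by
      ext μ
      rw [coeff_projPoly, coeff_one, coeff_C]
      split_ifs <;> simp
    rw [h2] at h1
    exact Ideal.IsPrime.ne_top' (Ideal.eq_top_of_isUnit_mem Q h1
      ((isUnit_iff_ne_zero.2 hi).map C))
  · by_contra hne
    push Not at hne
    obtain ⟨lv, hlv⟩ : ∃ lam : Ω →ₗ[k] k, projPoly lam v ∉ Q := by
      by_contra h
      push Not at h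
      exact hne.1 (mem_extIdeal_of_projPoly h)
    obtain ⟨lw, hlw⟩ : ∃ lam : Ω →ₗ[k] k, projPoly lam w ∉ Q := by
      by_contra h
      push Not at h
      exact hne.2 (mem_extIdeal_of_projPoly h)
    refine (Ideal.IsPrime.mul_notMem inferInstance hlv hlw) ?_
    rw [← IsPrime.vanishingIdeal_zeroLocus (K := k) Q, mem_vanishingIdeal_iff]
    intro y hy
    have h0 : eval (fun i => algebraMap k Ω (y i)) (v * w) = 0 := by
      suffices extIdeal Ω Q ≤ RingHom.ker (eval fun i => algebraMap k Ω (y i)) from this hvw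
      refine Ideal.map_le_iff_le_comap.2 fun P hP => ?_
      rw [Ideal.mem_comap, RingHom.mem_ker, eval_map, ← Function.comp_def (algebraMap k Ω) y,
        ← eval₂_comp, ← aeval_eq_eval, hy P hP, map_zero]
    rw [aeval_eq_eval, map_mul, ← projPoly_eval, ← projPoly_eval]
    rw [map_mul, mul_eq_zero] at h0
    rcases h0 with h0 | h0
    · rw [h0, map_zero, zero_mul]
    · rw [h0, map_zero, mul_zero]

variable {F : Type*} [Field F] [Algebra k F]

/-- **Primes with a regular field stay prime in algebraic extensions.** -/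
theorem isPrime_extIdeal_of_regular [CharZero k] [Algebra.IsAlgebraic k Ω] {y : σ → F}
    (hreg : ∀ g ∈ IntermediateField.adjoin k (Set.range y), IsAlgebraic k g →
      g ∈ (⊥ : IntermediateField k F)) :
    (extIdeal Ω (RingHom.ker (aeval (R := k) y))).IsPrime := by
  classical
  obtain ⟨e⟩ : Nonempty (Ω →ₐ[k] AlgebraicClosure F) := ⟨IsAlgClosed.lift⟩
  obtain ⟨Φ, hΦ⟩ : ∃ Φ : MvPolynomial σ Ω →+* AlgebraicClosure F,
      Φ = eval₂Hom e.toRingHom fun i => algebraMap F (AlgebraicClosure F) (y i) := ⟨_, rfl⟩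
  have hΦmap : ∀ P : MvPolynomial σ k, Φ (map (algebraMap k Ω) P) =
      algebraMap F (AlgebraicClosure F) (aeval y P) := fun P => by
    rw [hΦ, eval₂Hom_map_hom, coe_eval₂Hom, aeval_def, eval₂_comp_left (algebraMap F _),
      ← IsScalarTower.algebraMap_eq, show e.toRingHom.comp (algebraMap k Ω) =
        algebraMap k (AlgebraicClosure F) from e.comp_algebraMap]
    rfl
  suffices extIdeal Ω (RingHom.ker (aeval (R := k) y)) = RingHom.ker Φ from
    this ▸ RingHom.ker_isPrime Φ
  refine le_antisymm (Ideal.map_le_iff_le_comap.2 fun P hP => ?_) fun w hw => ?_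
  · rw [RingHom.mem_ker] at hP
    rw [Ideal.mem_comap, RingHom.mem_ker, hΦmap, hP, map_zero]
  obtain ⟨k₁, hk₁⟩ : ∃ k₁, k₁ = IntermediateField.adjoin k (w.support.image w.coeff : Set Ω) :=
    ⟨_, rfl⟩
  have : FiniteDimensional k k₁ := by
    rw [hk₁]
    exact IntermediateField.finiteDimensional_adjoin fun x _ =>
      Algebra.IsIntegral.isIntegral x
  obtain ⟨pb⟩ : Nonempty (PowerBasis k k₁) := ⟨Field.powerBasisOfFiniteOfSeparable k k₁⟩
  have hc : ∀ μ, w.coeff μ ∈ k₁ := fun μ => by
    by_cases hμ : μ ∈ w.support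
    · exact hk₁ ▸ IntermediateField.subset_adjoin k _ (Finset.mem_image_of_mem _ hμ)
    · rw [notMem_support_iff.1 hμ]
      exact k₁.zero_mem
  obtain ⟨θ, hθ⟩ : ∃ θ : Ω, θ = (pb.gen : Ω) := ⟨_, rfl⟩
  obtain ⟨P, hP⟩ : ∃ P : Fin pb.dim → MvPolynomial σ k,
      P = fun j => ∑ μ ∈ w.support, monomial μ (pb.basis.repr ⟨_, hc μ⟩ j) := ⟨_, rfl⟩
  have hw' : w = ∑ j : Fin pb.dim, C (θ ^ (j : ℕ)) * map (algebraMap k Ω) (P j) := by
    conv_lhs => rw [w.as_sum]
    simp only [hP, map_sum, map_monomial, Finset.mul_sum, C_mul_monomial]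
    rw [Finset.sum_comm]
    refine Finset.sum_congr rfl fun μ _ => ?_
    rw [← map_sum]
    congr 1
    have h := congrArg (fun x : k₁ => (x : Ω)) (pb.basis.sum_repr ⟨_, hc μ⟩)
    simp only [AddSubmonoidClass.coe_finsetSum, PowerBasis.coe_basis] at h
    refine h.symm.trans (Finset.sum_congr rfl fun j _ => ?_)
    rw [hθ, IntermediateField.coe_smul, SubmonoidClass.coe_pow, Algebra.smul_def, mul_comm]
  -- the generator has the same degree over the field of `y`
  obtain ⟨F₀, hF₀⟩ : ∃ F₀, F₀ = IntermediateField.adjoin k (Set.range y) := ⟨_, rfl⟩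
  have hθint : IsIntegral k θ := Algebra.IsIntegral.isIntegral θ
  have hρ : IsIntegral F₀ (e θ) := (hθint.map e).tower_top
  obtain ⟨q, hq⟩ : ∃ q, q = minpoly F₀ (e θ) := ⟨_, rfl⟩
  have hqd : q ∣ (minpoly k θ).map (algebraMap k F₀) := hq ▸ minpoly.dvd _ _ (by
    rw [Polynomial.aeval_map_algebraMap, Polynomial.aeval_algHom_apply, minpoly.aeval, map_zero])
  have hcoeff : ∀ i, q.coeff i ∈ (algebraMap k F₀).range := fun i => by
    have h1 := Polynomial.isIntegral_coeff_of_dvd (minpoly k θ) q (minpoly.monic hθint)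
      (hq ▸ minpoly.monic hρ) hqd i
    obtain ⟨x, hx⟩ := IntermediateField.mem_bot.1 (hreg _ (hF₀ ▸ (q.coeff i).2)
      (h1.map (IntermediateField.val F₀)).isAlgebraic)
    exact ⟨x, Subtype.ext hx⟩
  obtain ⟨q', hq'⟩ := (Polynomial.mem_lifts q).1 ((Polynomial.lifts_iff_coeff_lifts q).2 fun i => by
    obtain ⟨x, hx⟩ := hcoeff i
    exact ⟨x, hx⟩)
  have hdeg : pb.dim ≤ q.natDegree := by
    have h1 : Polynomial.aeval (e θ) q' = 0 := by
      rw [← Polynomial.aeval_map_algebraMap F₀, hq', hq, minpoly.aeval]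
    rw [Polynomial.aeval_algHom_apply, map_eq_zero] at h1
    have hq0 : q' ≠ 0 := fun h => minpoly.ne_zero hρ (by rw [← hq, ← hq', h, Polynomial.map_zero])
    rw [← pb.natDegree_minpoly, ← hq', Polynomial.natDegree_map,
      show minpoly k pb.gen = minpoly k θ from hθ ▸
        (minpoly.algHom_eq k₁.val k₁.val.injective pb.gen).symm]
    exact Polynomial.natDegree_le_of_dvd (minpoly.dvd k θ h1) hq0
  obtain ⟨h, hh⟩ : ∃ h : Polynomial F₀, h = ∑ j : Fin pb.dim, Polynomial.monomial (j : ℕ)
      (⟨aeval y (P j), hF₀ ▸ IntermediateField.algebra_adjoin_le_adjoin k _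
        (by rw [Algebra.adjoin_range_eq_range_aeval]; exact ⟨P j, rfl⟩)⟩ : F₀) := ⟨_, rfl⟩
  have hh0 : h = 0 := by
    by_contra hne
    have h1 : Polynomial.aeval (e θ) h = 0 := by
      rw [hh, map_sum]
      rw [RingHom.mem_ker, hw', map_sum] at hw
      refine Eq.trans (Finset.sum_congr rfl fun j _ => ?_) hw
      rw [Polynomial.aeval_monomial, map_mul, hΦmap, hΦ, coe_eval₂Hom, eval₂_C, map_pow, mul_comm]
      rfl
    have h2 : h.natDegree < pb.dim := by
      refine lt_of_le_of_lt (b := pb.dim - 1) ?_ (Nat.sub_lt pb.dim_pos one_pos)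
      rw [hh]
      exact Polynomial.natDegree_sum_le_of_forall_le _ _ fun j _ =>
        (Polynomial.natDegree_monomial_le _).trans (by omega)
    have h3 := Polynomial.natDegree_le_of_dvd (minpoly.dvd F₀ _ h1) hne
    rw [← hq] at h3
    omega
  rw [hw']
  refine Ideal.sum_mem _ fun j _ => Ideal.mul_mem_left _ _ (Ideal.mem_map_of_mem _ ?_)
  have h4 := congrArg (fun g : Polynomial F₀ => (g.coeff j : F)) (hh ▸ hh0)
  simp only [Polynomial.finsetSum_coeff, Polynomial.coeff_monomial, Fin.val_inj, Finset.sum_ite_eq',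
    mem_univ, if_true, Polynomial.coeff_zero, ZeroMemClass.coe_zero] at h4
  exact h4

/-- **Primes with a regular field stay prime in every extension.** -/
theorem isPrime_extIdeal [CharZero k] [IsAlgClosed Ω] [Finite σ] {y : σ → F}
    (hreg : ∀ g ∈ IntermediateField.adjoin k (Set.range y), IsAlgebraic k g →
      g ∈ (⊥ : IntermediateField k F)) :
    (extIdeal Ω (RingHom.ker (aeval (R := k) y))).IsPrime := by
  have : IsAlgClosed (algebraicClosure k Ω) :=
    (algebraicClosure.isAlgClosure k Ω).isAlgClosed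
  have h1 := isPrime_extIdeal_of_regular (Ω := algebraicClosure k Ω) hreg
  have h2 := isPrime_extIdeal_of_isAlgClosed (Ω := Ω)
    (Q := extIdeal (algebraicClosure k Ω) (RingHom.ker (aeval (R := k) y)))
  have e : (MvPolynomial.map (algebraMap (algebraicClosure k Ω) Ω)).comp
      (MvPolynomial.map (algebraMap k (algebraicClosure k Ω))) =
      (MvPolynomial.map (algebraMap k Ω) : MvPolynomial σ k →+* MvPolynomial σ Ω) :=
    RingHom.ext fun p => by
      rw [RingHom.comp_apply, MvPolynomial.map_map, ← IsScalarTower.algebraMap_eq]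
  rwa [extIdeal, extIdeal, Ideal.map_map, e] at h2

end FA.BeukersTheorem
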