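import Fermat.Agent.BeukersTheorem.Main
import Fermat.Agent.SiegelShidlovskii.IncompleteGamma
import Fermat.Agent.SiegelShidlovskii.Bessel
import Fermat.Agent.AndreEFunctions.Main

/-!
# Consequences of Beukers' theorem

The lifting of polynomial and linear relations between the values at an algebraic point, the linear
independence of the values of independent functions, transcendence, and regularity.
-/

set_option autoImplicit false

noncomputable section

namespace FA.BeukersTheorem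

open Finset
open scoped Polynomial
open FA.SiegelShidlovskii (IsEFunction cval degreeIndex)

variable {m : ℕ} {f : Fin m → PowerSeries ℚ}

/-- The system over the algebraic numbers. -/
theorem systemHolds_map {T : ℚ[X]} {q : Fin m → ℚ[X]} {Q : Matrix (Fin m) (Fin m) ℚ[X]}
    (hf : ∀ i, (T : PowerSeries ℚ) * PowerSeries.derivative ℚ (f i) =
      (q i : PowerSeries ℚ) + ∑ j, (Q i j : PowerSeries ℚ) * f j) :
    SystemHolds f (T.map (algebraMap ℚ QBar)) (fun i => (q i).map (algebraMap ℚ QBar))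
      (Q.map fun x => x.map (algebraMap ℚ QBar)) := fun i => by
  obtain ⟨ι, hι⟩ : ∃ ι, ι = algebraMap ℚ QBar := ⟨_, rfl⟩
  have h1 : PowerSeries.derivative QBar (PowerSeries.map ι (f i)) =
      PowerSeries.map ι (PowerSeries.derivative ℚ (f i)) := by
    ext k
    simp [PowerSeries.coeff_derivative, map_mul]
  rw [← hι, h1, Polynomial.polynomial_map_coe, ← map_mul, hf i]
  simp [serHom, linForm, Polynomial.polynomial_map_coe, ← hι]

/-- A polynomial with algebraic coefficients is defined over the algebraic numbers. -/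
theorem exists_qbar_lift {p : MvPolynomial (Fin m) ℂ} (hpK : ∀ μ, IsAlgebraic ℚ (p.coeff μ)) :
    ∃ p' : MvPolynomial (Fin m) QBar, MvPolynomial.map (algebraMap QBar ℂ) p' = p := by
  refine ⟨∑ μ ∈ p.support,
    MvPolynomial.monomial μ (⟨p.coeff μ, mem_algebraicClosure_iff.2 (hpK μ)⟩ : QBar), ?_⟩
  rw [map_sum]
  conv_rhs => rw [p.as_sum]
  exact Finset.sum_congr rfl fun μ _ => MvPolynomial.map_monomial _ _ _

theorem toC_relation {P : MvPolynomial (Fin m) (Polynomial QBar)} (hP : P ∈ relIdeal f) :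
    MvPolynomial.eval₂ Polynomial.coeToPowerSeries.ringHom
      (fun i => PowerSeries.map (algebraMap ℚ ℂ) (f i)) (toC m P) = 0 := by
  rw [relIdeal, RingHom.mem_ker] at hP
  have h := serHom_toC (f := f) P
  rwa [hP, map_zero] at h

theorem isAlgebraic_coe (x : QBar) : IsAlgebraic ℚ (x : ℂ) := mem_algebraicClosure_iff.1 x.2

theorem map_eval_toC (α : QBar) (P : MvPolynomial (Fin m) (Polynomial QBar)) :
    MvPolynomial.map (Polynomial.evalRingHom (α : ℂ)) (toC m P) =
      MvPolynomial.map (algebraMap QBar ℂ) (MvPolynomial.map (Polynomial.evalRingHom α) P) := by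
  rw [toC, MvPolynomial.map_map, MvPolynomial.map_map]
  congr 2
  refine Polynomial.ringHom_ext (fun c => ?_) ?_
  · simp
  · simp

section System

variable (hE : ∀ i, IsEFunction (f i)) {T : ℚ[X]} {q : Fin m → ℚ[X]}
  {Q : Matrix (Fin m) (Fin m) ℚ[X]}
  (hf : ∀ i, (T : PowerSeries ℚ) * PowerSeries.derivative ℚ (f i) =
    (q i : PowerSeries ℚ) + ∑ j, (Q i j : PowerSeries ℚ) * f j)
  {α : ℂ} (hα : IsAlgebraic ℚ α) (hα0 : α ≠ 0) (hT : Polynomial.aeval α T ≠ 0)

theorem eval_map_ne_zero {β : QBar} (hT : Polynomial.aeval (β : ℂ) T ≠ 0) :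
    (T.map (algebraMap ℚ QBar)).eval β ≠ 0 := fun h => hT <| by
  rw [Polynomial.eval_map, ← Polynomial.aeval_def] at h
  rw [show ((β : QBar) : ℂ) = algebraMap QBar ℂ β from rfl, Polynomial.aeval_algebraMap_apply, h,
    map_zero]

include hE hf

theorem exists_flow_mem {β : QBar} (hβ0 : β ≠ 0) (hT : Polynomial.aeval (β : ℂ) T ≠ 0)
    {p : MvPolynomial (Fin m) QBar}
    (hp : MvPolynomial.aeval (fun i => cval (f i) (β : ℂ)) p = 0) :
    ∃ θ, IsFlow β (T.map (algebraMap ℚ QBar)) (fun i => (q i).map (algebraMap ℚ QBar))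
      (Q.map fun x => x.map (algebraMap ℚ QBar)) θ ∧ p ∈ valueIdeal f β θ := by
  obtain ⟨θ, hθ⟩ := exists_isFlow (eval_map_ne_zero hT)
    (fun i => (q i).map (algebraMap ℚ QBar)) (Q.map fun x => x.map (algebraMap ℚ QBar))
  exact ⟨θ, hθ, mem_valueIdeal_of_values hE hf hT hβ0 (systemHolds_map hf) (eval_map_ne_zero hT)
    hθ hp⟩

include hα hα0 hT

/-- **Beukers' theorem.** -/
theorem exists_relation {p : MvPolynomial (Fin m) ℂ} (hpK : ∀ μ, IsAlgebraic ℚ (p.coeff μ))
    (hp : MvPolynomial.eval (fun i => cval (f i) α) p = 0) :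
    ∃ P : MvPolynomial (Fin m) ℂ[X], (∀ μ n, IsAlgebraic ℚ ((P.coeff μ).coeff n)) ∧
      MvPolynomial.eval₂ Polynomial.coeToPowerSeries.ringHom
        (fun i => PowerSeries.map (algebraMap ℚ ℂ) (f i)) P = 0 ∧
      MvPolynomial.map (Polynomial.evalRingHom α) P = p ∧ P.totalDegree ≤ p.totalDegree := by
  obtain ⟨β, rfl⟩ : ∃ β : QBar, (β : ℂ) = α := ⟨⟨α, mem_algebraicClosure_iff.2 hα⟩, rfl⟩
  have hβ0 : β ≠ 0 := fun h => hα0 (by rw [h]; rfl)
  obtain ⟨p', rfl⟩ := exists_qbar_lift hpK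
  rw [MvPolynomial.eval_map, ← MvPolynomial.aeval_def] at hp
  obtain ⟨θ, hθ, hmem⟩ := exists_flow_mem hE hf hβ0 hT hp
  obtain ⟨P, hP, hPs, hPv⟩ := exists_relation_of_mem_valueIdeal (systemHolds_map hf)
    (eval_map_ne_zero hT) hθ hmem (isClosedUnder_degree _ _ _)
    (support_subset_degreeIndex (totalDegree_flowHom_le hθ.2.2.1 p'))
  refine ⟨toC m P, fun μ n => ?_, toC_relation hP, by rw [map_eval_toC, hPv], ?_⟩
  · rw [toC, MvPolynomial.coeff_map, Polynomial.coe_mapRingHom, Polynomial.coeff_map]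
    exact isAlgebraic_coe _
  · refine totalDegree_le_of_support ((MvPolynomial.support_map_subset _ _).trans (hPs.trans ?_))
    intro μ hμ
    rw [FA.SiegelShidlovskii.mem_degreeIndex] at hμ ⊢
    refine hμ.trans (le_of_eq ?_)
    rw [MvPolynomial.totalDegree, MvPolynomial.totalDegree,
      MvPolynomial.support_map_of_injective p' (algebraMap QBar ℂ).injective]

/-- **The lifting of linear relations.** -/
theorem exists_linear_relation (hq : ∀ i, q i = 0) {b : Fin m → ℂ}
    (hbK : ∀ i, IsAlgebraic ℚ (b i)) (hb : ∑ i, b i * cval (f i) α = 0) :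
    ∃ P : Fin m → ℂ[X], (∀ i n, IsAlgebraic ℚ ((P i).coeff n)) ∧
      ∑ i, (P i : PowerSeries ℂ) * PowerSeries.map (algebraMap ℚ ℂ) (f i) = 0 ∧
      ∀ i, (P i).eval α = b i := by
  classical
  obtain ⟨β, rfl⟩ : ∃ β : QBar, (β : ℂ) = α := ⟨⟨α, mem_algebraicClosure_iff.2 hα⟩, rfl⟩
  have hβ0 : β ≠ 0 := fun h => hα0 (by rw [h]; rfl)
  obtain ⟨b', hb'⟩ : ∃ b' : Fin m → QBar, ∀ i, (b' i : ℂ) = b i :=
    ⟨fun i => ⟨b i, mem_algebraicClosure_iff.2 (hbK i)⟩, fun i => rfl⟩
  have hp : MvPolynomial.aeval (fun i => cval (f i) (β : ℂ))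
      (∑ i, MvPolynomial.C (b' i) * MvPolynomial.X i) = 0 := by
    simpa [hb'] using hb
  obtain ⟨θ, hθ, hmem⟩ := exists_flow_mem hE hf hβ0 hT hp
  have hq0 : ∀ i, (fun i => (q i).map (algebraMap ℚ QBar)) i = 0 := fun i => by simp [hq i]
  obtain ⟨P, hP, hPs, hPv⟩ := exists_relation_of_mem_valueIdeal (systemHolds_map hf)
    (eval_map_ne_zero hT) hθ hmem (isClosedUnder_singles hq0 _)
    (support_flowHom_singles (hθ.2.2.2 hq0) b')
  have hinj : Function.Injective fun i : Fin m => Finsupp.single i 1 :=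
    Finsupp.single_left_injective one_ne_zero
  have hs : (toC m P).support ⊆ singles m := (MvPolynomial.support_map_subset _ _).trans hPs
  refine ⟨fun i => (toC m P).coeff (Finsupp.single i 1), fun i n => ?_, ?_, fun i => ?_⟩
  · simp only [toC, MvPolynomial.coeff_map, Polynomial.coe_mapRingHom, Polynomial.coeff_map]
    exact isAlgebraic_coe _
  · refine Eq.trans ?_ (toC_relation hP)
    conv_rhs => rw [MvPolynomial.eval₂_eq']
    rw [Finset.sum_subset hs fun μ _ hμ => by
        rw [MvPolynomial.notMem_support_iff.1 hμ, map_zero, zero_mul],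
      singles, Finset.sum_image hinj.injOn]
    refine Finset.sum_congr rfl fun i _ => congrArg _ ?_
    rw [Finset.prod_eq_single i (fun j _ hj => by simp [Finsupp.single_eq_of_ne hj])
      (fun h => absurd (mem_univ _) h), Finsupp.single_eq_same, pow_one]
  · have h := congrArg (fun w => w.coeff (Finsupp.single i 1)) (map_eval_toC β P)
    simp only [MvPolynomial.coeff_map, hPv, Polynomial.coe_evalRingHom] at h
    rw [h, MvPolynomial.coeff_sum, Finset.sum_eq_single i (fun j _ hj => ?_)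
      (fun h => absurd (mem_univ _) h), MvPolynomial.coeff_C_mul, MvPolynomial.coeff_X,
      if_pos rfl, mul_one]
    · exact hb' i
    · rw [MvPolynomial.coeff_C_mul, MvPolynomial.coeff_X, if_neg fun h => hj (hinj h), mul_zero]

/-- **Linear independence of the values.** -/
theorem values_linearIndependent (hq : ∀ i, q i = 0)
    (hind : ∀ A : Fin m → ℚ[X], ∑ i, (A i : PowerSeries ℚ) * f i = 0 → A = 0) {b : Fin m → ℂ}
    (hbK : ∀ i, IsAlgebraic ℚ (b i)) (hb : ∑ i, b i * cval (f i) α = 0) : b = 0 := by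
  obtain ⟨P, -, hP, hPv⟩ := exists_linear_relation hE hf hα hα0 hT hq hbK hb
  funext i
  suffices hPi : P i = 0 by rw [← hPv, hPi, Polynomial.eval_zero, Pi.zero_apply]
  ext n
  rw [Polynomial.coeff_zero, ← Module.forall_dual_apply_eq_zero_iff ℚ]
  intro lam
  obtain ⟨A, hA⟩ : ∃ A : Fin m → ℚ[X], A = fun i =>
      ∑ n ∈ (P i).support, Polynomial.monomial n (lam ((P i).coeff n)) := ⟨_, rfl⟩
  have hAc : ∀ i n, (A i).coeff n = lam ((P i).coeff n) := fun i n => by
    simp only [hA, Polynomial.finsetSum_coeff, Polynomial.coeff_monomial, Finset.sum_ite_eq']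
    split_ifs with h
    · rfl
    · rw [Polynomial.notMem_support_iff.1 h, map_zero]
  have h : A = 0 := hind A <| by
    ext k
    have h1 := congrArg (fun g => lam (PowerSeries.coeff k g)) hP
    simp only [map_sum, PowerSeries.coeff_mul, PowerSeries.coeff_map, Polynomial.coeff_coe,
      map_zero] at h1 ⊢
    refine Eq.trans ?_ h1
    refine Finset.sum_congr rfl fun i _ => Finset.sum_congr rfl fun x _ => ?_
    rw [hAc, mul_comm _ (algebraMap ℚ ℂ _), ← Algebra.smul_def, map_smul, smul_eq_mul, mul_comm]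
  rw [← hAc, h]
  simp

end System

/-- **Linear independence of `1` and the values.** -/
theorem values_linearIndependent_one (hE : ∀ i, IsEFunction (f i)) {T : ℚ[X]} {q : Fin m → ℚ[X]}
    {Q : Matrix (Fin m) (Fin m) ℚ[X]}
    (hf : ∀ i, (T : PowerSeries ℚ) * PowerSeries.derivative ℚ (f i) =
      (q i : PowerSeries ℚ) + ∑ j, (Q i j : PowerSeries ℚ) * f j)
    (hind : ∀ (A₀ : ℚ[X]) (A : Fin m → ℚ[X]),
      (A₀ : PowerSeries ℚ) + ∑ i, (A i : PowerSeries ℚ) * f i = 0 → A₀ = 0 ∧ A = 0)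
    {α : ℂ} (hα : IsAlgebraic ℚ α) (hα0 : α ≠ 0) (hT : Polynomial.aeval α T ≠ 0) {b₀ : ℂ}
    {b : Fin m → ℂ} (hb₀K : IsAlgebraic ℚ b₀) (hbK : ∀ i, IsAlgebraic ℚ (b i))
    (h : b₀ + ∑ i, b i * cval (f i) α = 0) : b₀ = 0 ∧ b = 0 := by
  obtain ⟨g, hg⟩ : ∃ g : Fin (m + 1) → PowerSeries ℚ, g = Fin.cons 1 f := ⟨_, rfl⟩
  obtain ⟨R, hR⟩ : ∃ R : Matrix (Fin (m + 1)) (Fin (m + 1)) ℚ[X],
      R = Matrix.of (Fin.cons 0 fun i => Fin.cons (q i) (Q i)) := ⟨_, rfl⟩
  have hg' : ∀ a, (T : PowerSeries ℚ) * PowerSeries.derivative ℚ (g a) =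
      ((0 : ℚ[X]) : PowerSeries ℚ) + ∑ j, (R a j : PowerSeries ℚ) * g j := fun a => by
    refine Fin.cases ?_ (fun k => ?_) a
    · simp [hg, hR]
    · simp [hg, hR, Fin.sum_univ_succ, hf k]
  have hgE : ∀ a, IsEFunction (g a) := fun a => by
    refine Fin.cases ?_ (fun k => ?_) a
    · simpa [hg] using FA.SiegelShidlovskii.isEFunction_one
    · simpa [hg] using hE k
  have hb := values_linearIndependent hgE hg' hα hα0 hT (fun _ => rfl) (fun A hA => ?_)
    (b := Fin.cons b₀ b) (fun a => ?_) ?_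
  · exact ⟨congrFun hb 0, funext fun i => congrFun hb i.succ⟩
  · rw [Fin.sum_univ_succ] at hA
    obtain ⟨h0, h1⟩ := hind (A 0) (fun k => A k.succ) (by simpa [hg] using hA)
    exact funext fun a => Fin.cases h0 (congrFun h1) a
  · refine Fin.cases ?_ (fun k => ?_) a
    · simpa using hb₀K
    · simpa using hbK k
  · simpa [hg, Fin.sum_univ_succ, FA.SiegelShidlovskii.cval_one] using h

/-- **Transcendence of the values.** -/
theorem transcendental_values (hE : ∀ i, IsEFunction (f i)) {T : ℚ[X]} {q : Fin m → ℚ[X]}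
    {Q : Matrix (Fin m) (Fin m) ℚ[X]}
    (hf : ∀ i, (T : PowerSeries ℚ) * PowerSeries.derivative ℚ (f i) =
      (q i : PowerSeries ℚ) + ∑ j, (Q i j : PowerSeries ℚ) * f j)
    (hind : ∀ (A₀ : ℚ[X]) (A : Fin m → ℚ[X]),
      (A₀ : PowerSeries ℚ) + ∑ i, (A i : PowerSeries ℚ) * f i = 0 → A₀ = 0 ∧ A = 0)
    {α : ℂ} (hα : IsAlgebraic ℚ α) (hα0 : α ≠ 0) (hT : Polynomial.aeval α T ≠ 0) (i : Fin m) :
    Transcendental ℚ (cval (f i) α) := by
  classical
  intro halg
  obtain ⟨-, h⟩ := values_linearIndependent_one hE hf hind hα hα0 hT halg.neg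
    (b := Pi.single i 1) (fun k => by
      rw [Pi.single_apply]
      split_ifs
      · exact isAlgebraic_one
      · exact isAlgebraic_zero)
    (by simp [Pi.single_apply])
  simpa using congrFun h i

/-- **The field of the functions is regular.** -/
theorem exists_quotient_of_algebraic (hE : ∀ i, IsEFunction (f i))
    {A B : MvPolynomial (Fin m) (Polynomial QBar)} (hB : serHom QBar f B ≠ 0) {n : ℕ}
    {c : ℕ → Polynomial QBar} (hc : c n ≠ 0)
    (h : ∑ k ∈ range (n + 1),
      (c k : PowerSeries QBar) * serHom QBar f A ^ k * serHom QBar f B ^ (n - k) = 0) :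
    ∃ H G : Polynomial QBar, G ≠ 0 ∧
      serHom QBar f A * (G : PowerSeries QBar) = (H : PowerSeries QBar) * serHom QBar f B := by
  classical
  obtain ⟨o, ho⟩ : ∃ o, o = algebraMap (Polynomial QBar) RatField := ⟨_, rfl⟩
  have hinj : Function.Injective o := ho ▸ IsFractionRing.injective (Polynomial QBar) RatField
  obtain ⟨ω, hω⟩ : ∃ ω, ω = HahnSeries.ofPowerSeries ℤ QBar := ⟨_, rfl⟩
  have hωinj : Function.Injective ω := hω ▸ HahnSeries.ofPowerSeries_injective
  have hB' : ω (serHom QBar f B) ≠ 0 := fun h => hB (hωinj (h.trans (map_zero _).symm))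
  obtain ⟨p, hpdef⟩ : ∃ p, p = ∑ k ∈ range (n + 1), Polynomial.monomial k (o (c k)) := ⟨_, rfl⟩
  have hp0 : p ≠ 0 := fun h0 => hc <| hinj <| by
    have h1 := congrArg (fun p => p.coeff n) (hpdef.symm.trans h0)
    simpa [Polynomial.finsetSum_coeff, Polynomial.coeff_monomial] using h1
  have hA : evalFun f (MvPolynomial.map o A) = ω (serHom QBar f A) := by rw [ho, hω, evalFun_map]
  have hBe : evalFun f (MvPolynomial.map o B) = ω (serHom QBar f B) := by rw [ho, hω, evalFun_map]
  obtain ⟨x, hx⟩ := mem_range_of_isAlgebraic hE (r := MvPolynomial.map o A)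
    (s := MvPolynomial.map o B) hp0 (by
      refine mul_right_cancel₀ (pow_ne_zero n hB') ?_
      rw [zero_mul, hA, hBe, hpdef, Polynomial.eval₂_finsetSum, Finset.sum_mul]
      rw [← map_zero ω, ← h, map_sum]
      refine Finset.sum_congr rfl fun k hk => ?_
      rw [Polynomial.eval₂_monomial, ho, ratToLaurent_algebraMap, ← hω, map_mul, map_mul, map_pow,
        map_pow, ← Nat.add_sub_cancel' (Nat.le_of_lt_succ (mem_range.1 hk)), pow_add,
        Nat.add_sub_cancel_left, div_pow]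
      field_simp)
  obtain ⟨H, G, hG, rfl⟩ := IsFractionRing.div_surjective (A := Polynomial QBar) x
  have hG0 : G ≠ 0 := nonZeroDivisors.ne_zero hG
  refine ⟨H, G, hG0, hωinj ?_⟩
  have hGne : ω (G : PowerSeries QBar) ≠ 0 := fun h =>
    hG0 (Polynomial.coe_eq_zero_iff.1 (hωinj (h.trans (map_zero _).symm)))
  rw [map_div₀, ratToLaurent_algebraMap, ratToLaurent_algebraMap, ← hω, hA, hBe,
    div_eq_div_iff hGne hB'] at hx
  rw [map_mul, map_mul]
  exact hx.symm

/-- **`exp α` is transcendental** for an algebraic `α ≠ 0`, an instance of the theorem. -/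
theorem transcendental_exp {α : ℂ} (hα : IsAlgebraic ℚ α) (hα0 : α ≠ 0) :
    Transcendental ℚ (Complex.exp α) := by
  have h := transcendental_values (f := fun _ : Fin 1 => PowerSeries.exp ℚ)
    (fun _ => FA.SiegelShidlovskii.isEFunction_exp) (T := 1) (q := 0) (Q := 1)
    (fun i => by rw [Fin.eq_zero i]; simp [PowerSeries.derivative_exp]) (fun A₀ A hA => ?_) hα hα0
    (by simp) 0
  · rwa [FA.SiegelShidlovskii.cval_exp] at h
  · obtain ⟨h0, h1⟩ := FA.AndreEFunctions.exp_independent (A := A₀) (B := A 0) (by simpa using hA)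
    exact ⟨h0, funext fun i => by rw [Fin.eq_zero i, h1]; rfl⟩

end FA.BeukersTheorem
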