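import Fermat.Agent.BeukersTheorem.Relations
import Fermat.Agent.SiegelShidlovskii.SecondTheorem

/-!
# Beukers' theorem at algebraic points

The values at `α` of the relations form a prime ideal inside that of the relations between the
values, and both have the same transcendence degree; so they are equal.
-/

set_option autoImplicit false

noncomputable section

namespace FA.BeukersTheorem

open Finset MvPolynomial
open FA.SiegelShidlovskii (IsEFunction cval degreeIndex mem_degreeIndex)

variable {m : ℕ} {f : Fin m → PowerSeries ℚ} {α : QBar}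

theorem support_subset_degreeIndex {R : Type*} [CommRing R] {w : MvPolynomial (Fin m) R} {D : ℕ}
    (h : w.totalDegree ≤ D) : w.support ⊆ degreeIndex m D := fun μ hμ => by
  rw [mem_degreeIndex, ← Finsupp.sum_fintype μ (fun _ x => x) (fun _ => rfl)]
  exact (MvPolynomial.le_totalDegree hμ).trans h

theorem totalDegree_le_of_support {R : Type*} [CommRing R] {w : MvPolynomial (Fin m) R} {D : ℕ}
    (h : w.support ⊆ degreeIndex m D) : w.totalDegree ≤ D :=
  Finset.sup_le fun μ hμ => by
    rw [Finsupp.sum_fintype _ _ (fun _ => rfl)]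
    exact mem_degreeIndex.1 (h hμ)

theorem totalDegree_linForm_le {R : Type*} [CommRing R] [Nontrivial R] (q : Fin m → R)
    (Q : Matrix (Fin m) (Fin m) R) (i : Fin m) : (linForm q Q i).totalDegree ≤ 1 := by
  refine (totalDegree_add _ _).trans (max_le (by simp) ((totalDegree_finsetSum _ _).trans
    (Finset.sup_le fun j _ => (totalDegree_mul _ _).trans ?_)))
  simp [totalDegree_X]

theorem isClosedUnder_degree (q : Fin m → Polynomial QBar)
    (Q : Matrix (Fin m) (Fin m) (Polynomial QBar)) (D : ℕ) :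
    IsClosedUnder (linForm q Q) (degreeIndex m D) := by
  intro μ hμ
  refine support_subset_degreeIndex ((totalDegree_finsetSum _ _).trans
    (Finset.sup_le fun i _ => ?_))
  rw [pderiv_monomial, one_mul]
  rcases Nat.eq_zero_or_pos (μ i) with h | h
  · simp [h]
  · refine (totalDegree_mul _ _).trans ?_
    refine le_trans (Nat.add_le_add (totalDegree_linForm_le q Q i) (totalDegree_monomial_le _ _)) ?_
    rw [Finsupp.sum_fintype _ _ (fun _ => rfl), add_comm]
    simp only [id]
    rw [FA.SiegelShidlovskii.sum_sub_single (show μ i ≠ 0 by omega)]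
    exact mem_degreeIndex.1 hμ

/-- The exponents of the linear forms. -/
def singles (m : ℕ) : Finset (Fin m →₀ ℕ) :=
  univ.image fun i => Finsupp.single i 1

theorem support_linForm_subset {R : Type*} [CommRing R] {q : Fin m → R} (hq : ∀ i, q i = 0)
    (Q : Matrix (Fin m) (Fin m) R) (i : Fin m) : (linForm q Q i).support ⊆ singles m := by
  classical
  intro μ hμ
  by_contra h
  refine mem_support_iff.1 hμ ?_
  simp only [linForm, hq i, map_zero, zero_add, coeff_sum, coeff_C_mul, coeff_X]
  refine Finset.sum_eq_zero fun j _ => ?_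
  rw [if_neg fun h' => h (Finset.mem_image.2 ⟨j, mem_univ _, h'⟩), mul_zero]

theorem isClosedUnder_singles {q : Fin m → Polynomial QBar} (hq : ∀ i, q i = 0)
    (Q : Matrix (Fin m) (Fin m) (Polynomial QBar)) :
    IsClosedUnder (linForm q Q) (singles m) := by
  intro μ hμ
  obtain ⟨j, -, rfl⟩ := Finset.mem_image.1 hμ
  rw [Finset.sum_eq_single j (fun i _ hi => ?_) (fun h => absurd (mem_univ _) h), ← X,
    pderiv_X_self, mul_one]
  · exact support_linForm_subset hq Q j
  · rw [← X, pderiv_X_of_ne (Ne.symm hi), mul_zero]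

theorem map_linForm {R S : Type*} [CommRing R] [CommRing S] (φ : R →+* S) (q : Fin m → R)
    (Q : Matrix (Fin m) (Fin m) R) (i : Fin m) :
    MvPolynomial.map φ (linForm q Q i) = linForm (fun i => φ (q i)) (Q.map φ) i := by
  simp [linForm]

variable {T : Polynomial QBar} {q : Fin m → Polynomial QBar}
  {Q : Matrix (Fin m) (Fin m) (Polynomial QBar)}

/-- The substitution of the flow. -/
def flowHom (θ : Fin m → MvPolynomial (Fin m) (PowerSeries QBar)) :
    MvPolynomial (Fin m) QBar →+* MvPolynomial (Fin m) (PowerSeries QBar) :=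
  MvPolynomial.eval₂Hom (MvPolynomial.C.comp PowerSeries.C) θ

theorem pointDelta_flowHom {θ : Fin m → MvPolynomial (Fin m) (PowerSeries QBar)}
    (hθ : ∀ i, pointDelta α T (linForm q Q) (θ i) = 0) (p : MvPolynomial (Fin m) QBar) :
    pointDelta α T (linForm q Q) (flowHom θ p) = 0 := by
  induction p using MvPolynomial.induction_on with
  | C a =>
    rw [flowHom, eval₂Hom_C, pointDelta, delta, RingHom.comp_apply, ← monomial_zero',
      coeffDer_monomial (map_zero _), PowerSeries.derivative_C]
    simp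
  | add p r hp hr =>
    rw [pointDelta] at hp hr ⊢
    rw [map_add, delta_add (map_add _), hp, hr, add_zero]
  | mul_X p i hp =>
    have h1 := hθ i
    rw [pointDelta] at hp h1 ⊢
    rw [map_mul, delta_mul (map_add _) (fun a b => by
      rw [Derivation.leibniz, smul_eq_mul, smul_eq_mul]; ring), hp, zero_mul, zero_add]
    rw [show flowHom θ (X i) = θ i from eval₂Hom_X' _ _ _, h1, mul_zero]

theorem map_constantCoeff_flowHom {θ : Fin m → MvPolynomial (Fin m) (PowerSeries QBar)}
    (hθ : ∀ i, MvPolynomial.map PowerSeries.constantCoeff (θ i) = X i)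
    (p : MvPolynomial (Fin m) QBar) :
    MvPolynomial.map PowerSeries.constantCoeff (flowHom θ p) = p := by
  have h : (MvPolynomial.map PowerSeries.constantCoeff).comp (flowHom θ) = RingHom.id _ :=
    MvPolynomial.ringHom_ext (fun a => by simp [flowHom]) fun i => by simp [flowHom, hθ]
  exact RingHom.congr_fun h p

theorem totalDegree_flowHom_le {θ : Fin m → MvPolynomial (Fin m) (PowerSeries QBar)}
    (hθ : ∀ i, (θ i).totalDegree ≤ 1) (p : MvPolynomial (Fin m) QBar) :
    (flowHom θ p).totalDegree ≤ p.totalDegree := by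
  conv_lhs => rw [p.as_sum, map_sum]
  refine (totalDegree_finsetSum _ _).trans (Finset.sup_le fun μ hμ => ?_)
  rw [flowHom, eval₂Hom_monomial, RingHom.comp_apply]
  refine (totalDegree_mul _ _).trans ?_
  rw [totalDegree_C, zero_add, Finsupp.prod]
  refine (totalDegree_finsetProd _ _).trans (le_trans ?_ (MvPolynomial.le_totalDegree hμ))
  refine Finset.sum_le_sum fun i _ => (totalDegree_pow _ _).trans ?_
  simpa using Nat.mul_le_mul_left (μ i) (hθ i)

theorem support_flowHom_singles {θ : Fin m → MvPolynomial (Fin m) (PowerSeries QBar)}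
    (hθ : ∀ i, (θ i).support ⊆ singles m) (b : Fin m → QBar) :
    (flowHom θ (∑ i, C (b i) * X i)).support ⊆ singles m := by
  classical
  intro μ hμ
  by_contra h
  refine mem_support_iff.1 hμ ?_
  simp only [flowHom, map_sum, map_mul, eval₂Hom_C, eval₂Hom_X', RingHom.comp_apply, coeff_sum,
    coeff_C_mul]
  exact Finset.sum_eq_zero fun i _ => by
    rw [notMem_support_iff.1 fun h' => h (hθ i h'), mul_zero]

theorem support_singles_of_degree {R : Type*} [CommRing R] {w : MvPolynomial (Fin m) R}
    (h1 : w.totalDegree ≤ 1) (h0 : w.coeff 0 = 0) : w.support ⊆ singles m := by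
  classical
  intro μ hμ
  have h2 := mem_degreeIndex.1 (support_subset_degreeIndex h1 hμ)
  obtain ⟨j, hj⟩ : ∃ j, μ j ≠ 0 := by
    by_contra hall
    push Not at hall
    rw [show μ = 0 from Finsupp.ext hall] at hμ
    exact mem_support_iff.1 hμ h0
  refine Finset.mem_image.2 ⟨j, mem_univ _, Finsupp.ext fun l => ?_⟩
  have h3 := Finset.sum_eq_sum_sdiff_singleton_add (mem_univ j) fun x => μ x
  rcases eq_or_ne j l with rfl | hjl
  · rw [Finsupp.single_eq_same]
    omega
  · rw [Finsupp.single_eq_of_ne (Ne.symm hjl)]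
    have h4 := Finset.single_le_sum (f := fun x => μ x) (fun _ _ => Nat.zero_le _)
      (show l ∈ univ \ {j} by simp [Ne.symm hjl])
    omega

/-- The relations at `α`: the initial values of the killed forms in the extended relations. -/
def valueIdeal (f : Fin m → PowerSeries ℚ) (α : QBar)
    (θ : Fin m → MvPolynomial (Fin m) (PowerSeries QBar)) : Ideal (MvPolynomial (Fin m) QBar) :=
  (pointIdeal f α).comap ((MvPolynomial.map serPoint).comp (flowHom θ))

/-- The equations of the functions over the algebraic numbers. -/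
def SystemHolds (f : Fin m → PowerSeries ℚ) (T : Polynomial QBar) (q : Fin m → Polynomial QBar)
    (Q : Matrix (Fin m) (Fin m) (Polynomial QBar)) : Prop :=
  ∀ i, (T : PowerSeries QBar) *
      PowerSeries.derivative QBar (PowerSeries.map (algebraMap ℚ QBar) (f i)) =
    serHom QBar f (linForm q Q i)

/-- A flow at `α`. -/
def IsFlow (α : QBar) (T : Polynomial QBar) (q : Fin m → Polynomial QBar)
    (Q : Matrix (Fin m) (Fin m) (Polynomial QBar))
    (θ : Fin m → MvPolynomial (Fin m) (PowerSeries QBar)) : Prop :=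
  (∀ i, pointDelta α T (linForm q Q) (θ i) = 0) ∧
    (∀ i, MvPolynomial.map PowerSeries.constantCoeff (θ i) = X i) ∧
    (∀ i, (θ i).totalDegree ≤ 1) ∧ ((∀ i, q i = 0) → ∀ i, (θ i).support ⊆ singles m)

theorem exists_isFlow (hα : T.eval α ≠ 0) (q : Fin m → Polynomial QBar)
    (Q : Matrix (Fin m) (Fin m) (Polynomial QBar)) : ∃ θ, IsFlow α T q Q θ := by
  obtain ⟨θ, h1, h2, h3, h4⟩ := exists_flow (T := atAlg α T) (by rwa [constantCoeff_atAlg])
    (fun i => atAlg α (q i)) (Q.map (atAlg α))
  refine ⟨θ, fun i => ?_, h2, h3, fun hq i => support_singles_of_degree (h3 i)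
    (h4 (fun j => by rw [hq j, map_zero]) i)⟩
  have e : (fun i => MvPolynomial.map (atAlg α) (linForm q Q i)) =
      linForm (fun i => atAlg α (q i)) (Q.map (atAlg α)) := funext fun i => map_linForm _ _ _ _
  rw [pointDelta, e]
  exact h1 i

variable {θ : Fin m → MvPolynomial (Fin m) (PowerSeries QBar)}

theorem map_eval_mem_valueIdeal (hf : SystemHolds f T q Q) (hα : T.eval α ≠ 0)
    (hθ : IsFlow α T q Q θ) {P : MvPolynomial (Fin m) (Polynomial QBar)} (hP : P ∈ relIdeal f) :
    MvPolynomial.map (Polynomial.evalRingHom α) P ∈ valueIdeal f α θ := by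
  obtain ⟨p, hp⟩ : ∃ p, p = MvPolynomial.map (Polynomial.evalRingHom α) P := ⟨_, rfl⟩
  rw [← hp, valueIdeal, Ideal.mem_comap, RingHom.comp_apply]
  have hdeg : p.totalDegree ≤ P.totalDegree := by
    rw [hp]
    exact totalDegree_le_of_support
      ((support_map_subset _ _).trans (support_subset_degreeIndex le_rfl))
  refine mem_pointIdeal_of_mem_relValues hf hα (isClosedUnder_degree q Q P.totalDegree)
    (support_subset_degreeIndex ((totalDegree_flowHom_le hθ.2.2.1 p).trans hdeg))
    (pointDelta_flowHom hθ.1 p) ⟨P, hP, support_subset_degreeIndex le_rfl, fun μ => ?_⟩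
  have h := congrArg (fun w => w.coeff μ.1) (map_constantCoeff_flowHom hθ.2.1 p)
  simp only [coeff_map] at h
  change (P.coeff μ.1).eval α = PowerSeries.constantCoeff ((flowHom θ p).coeff μ.1)
  rw [h, hp, coeff_map, Polynomial.coe_evalRingHom]

theorem exists_relation_of_mem_valueIdeal (hf : SystemHolds f T q Q) (hα : T.eval α ≠ 0)
    (hθ : IsFlow α T q Q θ) {p : MvPolynomial (Fin m) QBar} (hp : p ∈ valueIdeal f α θ)
    {Δ : Finset (Fin m →₀ ℕ)} (hΔ : IsClosedUnder (linForm q Q) Δ)
    (hsupp : (flowHom θ p).support ⊆ Δ) :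
    ∃ P ∈ relIdeal f, P.support ⊆ Δ ∧ MvPolynomial.map (Polynomial.evalRingHom α) P = p := by
  obtain ⟨P, hP, hPs, hPv⟩ := mem_relValues_of_mem_pointIdeal hf hα hΔ hsupp hp
  refine ⟨P, hP, hPs, ?_⟩
  conv_rhs => rw [← map_constantCoeff_flowHom hθ.2.1 p]
  refine MvPolynomial.ext _ _ fun μ => ?_
  rw [coeff_map, coeff_map, Polynomial.coe_evalRingHom]
  by_cases hμ : μ ∈ Δ
  · exact hPv ⟨μ, hμ⟩
  · rw [notMem_support_iff.1 fun h => hμ (hPs h), notMem_support_iff.1 fun h => hμ (hsupp h)]
    simp

/-- The values of a relation. -/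
theorem values_relation_eq_zero (hE : ∀ i, IsEFunction (f i))
    {P : MvPolynomial (Fin m) (Polynomial QBar)} (hP : P ∈ relIdeal f) :
    aeval (fun i => cval (f i) (α : ℂ)) (MvPolynomial.map (Polynomial.evalRingHom α) P) = 0 := by
  rw [relIdeal, RingHom.mem_ker] at hP
  have h := (serHom_eq_zero_iff hE (toC m P)).1 (by rw [serHom_toC, hP, map_zero]) (α : ℂ)
  rw [← h, aeval_def, eval₂_map, toC, funHom, coe_eval₂Hom, eval₂_map]
  congr 1
  refine Polynomial.ringHom_ext (fun c => ?_) ?_
  · simp
  · simp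

theorem valueIdeal_le (hE : ∀ i, IsEFunction (f i)) (hf : SystemHolds f T q Q)
    (hα : T.eval α ≠ 0) (hθ : IsFlow α T q Q θ) {p : MvPolynomial (Fin m) QBar}
    (hp : p ∈ valueIdeal f α θ) : aeval (fun i => cval (f i) (α : ℂ)) p = 0 := by
  obtain ⟨P, hP, -, rfl⟩ := exists_relation_of_mem_valueIdeal hf hα hθ hp
    (isClosedUnder_degree q Q _) (support_subset_degreeIndex le_rfl)
  exact values_relation_eq_zero hE hP

/-- A relation with a nonzero value at `α` in the same variables. -/
theorem exists_relation_nonzero_value {P : MvPolynomial (Fin m) (Polynomial QBar)} {S : Set (Fin m)}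
    (hP : P ∈ relIdeal f) (hP0 : P ≠ 0) (hPs : ∀ μ ∈ P.support, ∀ i, μ i ≠ 0 → i ∈ S) :
    ∃ P' ∈ relIdeal f, MvPolynomial.map (Polynomial.evalRingHom α) P' ≠ 0 ∧
      ∀ μ ∈ P'.support, ∀ i, μ i ≠ 0 → i ∈ S := by
  classical
  obtain ⟨μ₀, hμ₀⟩ := MvPolynomial.ne_zero_iff.1 hP0
  induction hn : (P.coeff μ₀).natDegree using Nat.strong_induction_on generalizing P with
  | _ n ih =>
  by_cases hall : ∀ μ, (P.coeff μ).IsRoot α
  · choose g hg using fun μ => Polynomial.dvd_iff_isRoot.2 (hall μ)
    obtain ⟨P', hP'⟩ : ∃ P', P' = ∑ μ ∈ P.support, monomial μ (g μ) := ⟨_, rfl⟩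
    have hpp : P = C (Polynomial.X - Polynomial.C α) * P' := by
      conv_lhs => rw [P.as_sum]
      rw [hP', Finset.mul_sum]
      exact Finset.sum_congr rfl fun μ _ => by rw [C_mul_monomial, ← hg]
    have hc : P.coeff μ₀ = (Polynomial.X - Polynomial.C α) * P'.coeff μ₀ := by
      conv_lhs => rw [hpp, coeff_C_mul]
    have hc0 : P'.coeff μ₀ ≠ 0 := right_ne_zero_of_mul (hc ▸ hμ₀)
    refine ih _ ?_ ?_ (fun h => hc0 (by rw [h, coeff_zero])) (fun μ hμ i hi => hPs μ ?_ i hi)
      hc0 rfl
    · rw [← hn, hc, Polynomial.natDegree_mul (Polynomial.X_sub_C_ne_zero α) hc0,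
        Polynomial.natDegree_X_sub_C]
      omega
    · rw [relIdeal, RingHom.mem_ker] at hP ⊢
      rw [hpp, map_mul, mul_eq_zero] at hP
      refine hP.resolve_left ?_
      rw [serHom, eval₂Hom_C]
      exact fun h => Polynomial.X_sub_C_ne_zero α (Polynomial.coe_eq_zero_iff.1 h)
    · rw [mem_support_iff] at hμ ⊢
      rw [hpp, coeff_C_mul]
      exact mul_ne_zero (Polynomial.X_sub_C_ne_zero α) hμ
  · push Not at hall
    obtain ⟨μ, hμ⟩ := hall
    refine ⟨P, hP, fun h => hμ ?_, hPs⟩
    have h1 := congrArg (fun w => MvPolynomial.coeff μ w) h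
    simpa [coeff_map] using h1

/-- A hom on a domain generated by elements with as many independent images as possible has no
kernel. -/
theorem eq_zero_of_map_eq_zero {k B C ι : Type*} [Field k] [CommRing B] [IsDomain B] [Algebra k B]
    [CommRing C] [Algebra k C] (Φ : B →ₐ[k] C) (u : ι → B)
    (hgen : Algebra.adjoin k (Set.range u) = ⊤) {U : Set ι}
    (hU : AlgebraicIndepOn k (Φ ∘ u) U) (hmax : ∀ i ∉ U, ¬AlgebraicIndepOn k u (insert i U))
    {b : B} (hb : Φ b = 0) : b = 0 := by
  have hUu : AlgebraicIndepOn k u U := AlgebraicIndependent.of_comp Φ hU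
  have halg : ∀ i, IsAlgebraic (Algebra.adjoin k (u '' U)) (u i) := fun i => by
    by_cases hi : i ∈ U
    · exact isAlgebraic_algebraMap
        (⟨u i, Algebra.subset_adjoin ⟨i, hi, rfl⟩⟩ : Algebra.adjoin k (u '' U))
    by_contra hcon
    exact hmax i hi (hUu.insert hcon)
  have hle : Algebra.adjoin k (Set.range u) ≤
      (Subalgebra.algebraicClosure (Algebra.adjoin k (u '' U)) B).restrictScalars k :=
    Algebra.adjoin_le (by rintro _ ⟨i, rfl⟩; exact halg i)
  rw [hgen] at hle
  by_contra hb0
  obtain ⟨a, ha, ha0⟩ := (Submodule.ne_bot_iff _).1 (Ideal.comap_ne_bot_of_algebraic_mem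
    (R := Algebra.adjoin k (u '' U)) (I := RingHom.ker Φ) hb0 (RingHom.mem_ker.2 hb)
    (hle (show b ∈ (⊤ : Subalgebra k B) from trivial)))
  obtain ⟨r, hr, hra⟩ : ∃ r ∈ supported k U, aeval u r = (a : B) := by
    have h1 : (a : B) ∈ (aeval (R := k) fun x : U => u x).range := by
      rw [← Algebra.adjoin_range_eq_range_aeval, ← Set.image_eq_range]
      exact a.2
    obtain ⟨r, hr⟩ := h1
    refine ⟨rename Subtype.val r, ?_, ?_⟩
    · rw [supported_eq_range_rename]
      exact ⟨r, rfl⟩
    · rw [aeval_rename]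
      exact hr
  have hr0 : r = 0 := by
    refine (algebraicIndependent_comp_subtype (x := Φ ∘ u)).1 hU r hr ?_
    rw [Ideal.mem_comap, RingHom.mem_ker] at ha
    rw [show Φ ∘ u = fun i => Φ (u i) from rfl, ← comp_aeval_apply (f := u) Φ r, hra]
    exact ha
  exact ha0 (Subtype.ext (by rw [← hra, hr0, map_zero, ZeroMemClass.coe_zero]))

/-- **The relations between the values come from the functions.** -/
theorem mem_valueIdeal_of_values (hE : ∀ i, IsEFunction (f i)) {T₀ : Polynomial ℚ}
    {q₀ : Fin m → Polynomial ℚ} {Q₀ : Matrix (Fin m) (Fin m) (Polynomial ℚ)}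
    (hf₀ : ∀ i, (T₀ : PowerSeries ℚ) * PowerSeries.derivative ℚ (f i) =
      (q₀ i : PowerSeries ℚ) + ∑ j, (Q₀ i j : PowerSeries ℚ) * f j)
    (hT₀ : Polynomial.aeval (α : ℂ) T₀ ≠ 0) (hα0 : α ≠ 0)
    (hf : SystemHolds f T q Q) (hα : T.eval α ≠ 0) (hθ : IsFlow α T q Q θ)
    {p : MvPolynomial (Fin m) QBar} (hp : aeval (fun i => cval (f i) (α : ℂ)) p = 0) :
    p ∈ valueIdeal f α θ := by
  classical
  obtain ⟨J, hJ⟩ : ∃ J, J = valueIdeal f α θ := ⟨_, rfl⟩
  have : (pointIdeal f α).IsPrime := isPrime_pointIdeal hE α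
  have : J.IsPrime := hJ ▸ Ideal.IsPrime.comap _
  rw [← hJ]
  have : Algebra.IsAlgebraic ℚ QBar := algebraicClosure.isAlgebraic ℚ ℂ
  obtain ⟨U, hU, hUalg, -, -⟩ := FA.SiegelShidlovskii.exists_card_eq_trdeg_adjoin (R := ℚ)
    fun i => cval (f i) (α : ℂ)
  have hαalg : IsAlgebraic ℚ (α : ℂ) := mem_algebraicClosure_iff.1 α.2
  have hUK : AlgebraicIndependent QBar fun i : (U : Set (Fin m)) => cval (f i) (α : ℂ) :=
    AlgebraicIndependent.extendScalars QBar hU
  have hmk : aeval (R := QBar) (fun i => Ideal.Quotient.mk J (X i)) = Ideal.Quotient.mkₐ QBar J :=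
    MvPolynomial.algHom_ext fun l => by simp
  have hker : ∀ a ∈ J, (aeval (R := QBar) fun i => cval (f i) (α : ℂ)) a = 0 := fun a ha =>
    valueIdeal_le hE hf hα hθ (hJ ▸ ha)
  refine Ideal.Quotient.eq_zero_iff_mem.1 (eq_zero_of_map_eq_zero
    (Ideal.Quotient.liftₐ J (aeval fun i => cval (f i) (α : ℂ)) hker)
    (fun i => Ideal.Quotient.mk J (X i)) ?_ (U := (U : Set (Fin m))) ?_ (fun i hi hins => ?_)
    (show Ideal.Quotient.liftₐ J (aeval fun i => cval (f i) (α : ℂ)) hker
      (Ideal.Quotient.mk J p) = 0 from hp))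
  · rw [eq_top_iff]
    intro b _
    obtain ⟨r, rfl⟩ := Ideal.Quotient.mk_surjective b
    induction r using MvPolynomial.induction_on with
    | C a =>
      exact Subalgebra.algebraMap_mem
        (Algebra.adjoin QBar (Set.range fun i => Ideal.Quotient.mk J (X i))) a
    | add a b ha hb =>
      rw [map_add]
      exact add_mem (ha trivial) (hb trivial)
    | mul_X a i ha =>
      rw [map_mul]
      exact mul_mem (ha trivial) (Algebra.subset_adjoin ⟨i, rfl⟩)
  · have e : ((Ideal.Quotient.liftₐ J (aeval fun i => cval (f i) (α : ℂ)) hker :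
        MvPolynomial (Fin m) QBar ⧸ J → ℂ) ∘ fun i => Ideal.Quotient.mk J (X i)) =
        fun i => cval (f i) (α : ℂ) := funext fun i => aeval_X (R := QBar) _ i
    rw [e]
    exact hUK
  · rw [Finset.mem_coe] at hi
    rw [← Finset.coe_insert] at hins
    have hdep : ¬AlgebraicIndepOn (Polynomial ℚ) f ((insert i U : Finset (Fin m)) : Set (Fin m)) :=
      fun h => by
        have := FA.SiegelShidlovskii.exists_values_of_algebraicIndepOn T₀ q₀ Q₀ hf₀ hE hαalg
          (fun h0 => hα0 (Subtype.ext h0)) hT₀ hUalg h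
        rw [Finset.card_insert_of_notMem hi] at this
        omega
    obtain ⟨P, hPs, hP, hP0⟩ : ∃ P ∈ supported (Polynomial ℚ)
        ((insert i U : Finset (Fin m)) : Set (Fin m)), aeval f P = 0 ∧ P ≠ 0 := by
      by_contra h
      push Not at h
      exact hdep (algebraicIndependent_comp_subtype.2 h)
    obtain ⟨ι, hι⟩ : ∃ ι, ι = Polynomial.mapRingHom (algebraMap ℚ QBar) := ⟨_, rfl⟩
    have hιi : Function.Injective ι := by
      rw [hι, Polynomial.coe_mapRingHom]
      exact Polynomial.map_injective _ (algebraMap ℚ QBar).injective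
    have hPrel : MvPolynomial.map ι P ∈ relIdeal f := by
      rw [relIdeal, RingHom.mem_ker]
      have h1 : ∀ R : MvPolynomial (Fin m) (Polynomial ℚ), serHom QBar f (MvPolynomial.map ι R) =
          PowerSeries.map (algebraMap ℚ QBar) (aeval f R) := by
        intro R
        induction R using MvPolynomial.induction_on with
        | C a =>
          rw [aeval_C, MvPolynomial.map_C, serHom, eval₂Hom_C, hι]
          exact Polynomial.polynomial_map_coe
        | add a b ha hb => simp only [map_add, ha, hb]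
        | mul_X a j ha =>
          simp only [map_mul, ha, MvPolynomial.map_X, aeval_X]
          rw [serHom, eval₂Hom_X']
      rw [h1, hP, map_zero]
    obtain ⟨P', hP', hP'0, hP's⟩ := exists_relation_nonzero_value (α := α) hPrel
      (fun h => hP0 (MvPolynomial.map_injective ι hιi (by rw [h, map_zero])))
      (S := ((insert i U : Finset (Fin m)) : Set (Fin m))) fun μ hμ l hl =>
        mem_supported.1 hPs (Finset.mem_coe.2 ((MvPolynomial.mem_vars_iff_mem_support l).2
          ⟨μ, support_map_subset _ _ hμ, Finsupp.mem_support_iff.2 hl⟩))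
    refine hP'0 ?_
    refine (algebraicIndependent_comp_subtype
      (x := fun i => Ideal.Quotient.mk J (X i))).1 hins _ ?_ ?_
    · refine mem_supported.2 fun l hl => ?_
      obtain ⟨μ, hμ, hlμ⟩ :=
        (MvPolynomial.mem_vars_iff_mem_support l).1 (Finset.mem_coe.1 hl)
      exact hP's μ (support_map_subset _ _ hμ) l (Finsupp.mem_support_iff.1 hlμ)
    · rw [hmk, Ideal.Quotient.mkₐ_eq_mk, Ideal.Quotient.eq_zero_iff_mem, hJ]
      exact map_eval_mem_valueIdeal hf hα hθ hP'

end FA.BeukersTheorem
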