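import Fermat.Agent.BeukersTheorem.Series
import Mathlib.RingTheory.LaurentSeries

/-!
# The field of the functions is regular over the rational functions

A quotient of two polynomials in E-functions which is algebraic over `ℚ̄(X)` has bounded poles and
polynomial growth, so it is a rational function.
-/

set_option autoImplicit false

noncomputable section

namespace FA.BeukersTheorem

open Finset Filter Topology
open FA.SiegelShidlovskii (IsEFunction cval)

/-- The field of the algebraic numbers. -/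
abbrev QBar : IntermediateField ℚ ℂ := algebraicClosure ℚ ℂ

variable {m : ℕ} {f : Fin m → PowerSeries ℚ}

/-- The coefficients seen in `ℂ`. -/
def toC (m : ℕ) :
    MvPolynomial (Fin m) (Polynomial QBar) →+* MvPolynomial (Fin m) (Polynomial ℂ) :=
  MvPolynomial.map (Polynomial.mapRingHom (algebraMap QBar ℂ))

theorem serHom_toC (P : MvPolynomial (Fin m) (Polynomial QBar)) :
    serHom ℂ f (toC m P) = PowerSeries.map (algebraMap QBar ℂ) (serHom QBar f P) := by
  rw [← RingHom.comp_apply, ← RingHom.comp_apply]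
  congr 1
  refine MvPolynomial.ringHom_ext (fun c => ?_) fun i => ?_
  · simp [serHom, toC, Polynomial.polynomial_map_coe]
  · ext k
    simp [serHom, toC]

/-- A bounded quotient is analytic. -/
theorem exists_quotient_eventually {a b : ℂ → ℂ} {z₀ : ℂ} (ha : AnalyticAt ℂ a z₀)
    (hb : AnalyticAt ℂ b z₀) (hb0 : ¬∀ᶠ z in 𝓝 z₀, b z = 0) {M : ℝ}
    (hbd : ∀ᶠ z in 𝓝[≠] z₀, ‖a z‖ ≤ M * ‖b z‖) :
    ∃ q : ℂ → ℂ, AnalyticAt ℂ q z₀ ∧ ∀ᶠ z in 𝓝[≠] z₀, b z ≠ 0 ∧ a z / b z = q z := by
  obtain ⟨s, v, hv, hv0, hbv⟩ := hb.exists_eventuallyEq_pow_smul_nonzero_iff.2 hb0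
  have hvne : ∀ᶠ z in 𝓝 z₀, v z ≠ 0 := hv.continuousAt.eventually_ne hv0
  have hbne : ∀ᶠ z in 𝓝[≠] z₀, b z ≠ 0 := by
    filter_upwards [hbv.filter_mono nhdsWithin_le_nhds, hvne.filter_mono nhdsWithin_le_nhds,
      self_mem_nhdsWithin] with z h1 h2 h3
    rw [h1]
    exact smul_ne_zero (pow_ne_zero _ (sub_ne_zero.2 h3)) h2
  by_cases ha0 : ∀ᶠ z in 𝓝 z₀, a z = 0
  · refine ⟨0, analyticAt_const, ?_⟩
    filter_upwards [hbne, ha0.filter_mono nhdsWithin_le_nhds] with z h1 h2
    exact ⟨h1, by simp [h2]⟩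
  obtain ⟨r, u, hu, hu0, hau⟩ := ha.exists_eventuallyEq_pow_smul_nonzero_iff.2 ha0
  rcases Nat.lt_or_ge r s with hlt | hge
  · exfalso
    obtain ⟨i, rfl⟩ := Nat.exists_eq_add_of_lt hlt
    have hle : ∀ᶠ z in 𝓝[≠] z₀, ‖u z‖ ≤ M * (‖z - z₀‖ ^ (i + 1) * ‖v z‖) := by
      filter_upwards [hau.filter_mono nhdsWithin_le_nhds, hbv.filter_mono nhdsWithin_le_nhds, hbd,
        self_mem_nhdsWithin] with z h1 h2 h3 h4
      rw [h1, h2, smul_eq_mul, smul_eq_mul, norm_mul, norm_mul, norm_pow, norm_pow, Nat.add_assoc,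
        pow_add, mul_assoc, mul_left_comm M] at h3
      exact le_of_mul_le_mul_left h3 (pow_pos (norm_pos_iff.2 (sub_ne_zero.2 h4)) r)
    have h1 : Tendsto (fun z => M * (‖z - z₀‖ ^ (i + 1) * ‖v z‖)) (𝓝[≠] z₀) (𝓝 0) := by
      have h2 : ContinuousAt (fun z => M * (‖z - z₀‖ ^ (i + 1) * ‖v z‖)) z₀ := by
        have := hv.continuousAt
        fun_prop
      have h3 := h2.tendsto.mono_left (nhdsWithin_le_nhds (s := {z₀}ᶜ))
      simpa using h3
    exact hu0 (norm_le_zero_iff.1 (le_of_tendsto_of_tendsto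
      (hu.continuousAt.norm.tendsto.mono_left nhdsWithin_le_nhds) h1 hle))
  · refine ⟨fun z => (z - z₀) ^ (r - s) * u z / v z,
      ((((analyticAt_id.sub analyticAt_const).pow _).mul hu).div hv hv0), ?_⟩
    filter_upwards [hbne, hau.filter_mono nhdsWithin_le_nhds, hbv.filter_mono nhdsWithin_le_nhds,
      self_mem_nhdsWithin] with z h1 h2 h3 h4
    refine ⟨h1, ?_⟩
    rw [h2, h3, smul_eq_mul, smul_eq_mul, ← Nat.add_sub_cancel' hge, pow_add,
      Nat.add_sub_cancel_left,
      mul_assoc, mul_div_mul_left _ _ (pow_ne_zero _ (sub_ne_zero.2 h4))]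

/-- The bound of a root of a monic equation. -/
theorem norm_le_of_root {n : ℕ} {r : ℂ} {d : ℕ → ℂ}
    (h : r ^ n + ∑ i ∈ range n, d i * r ^ i = 0) : ‖r‖ ≤ 1 + ∑ i ∈ range n, ‖d i‖ := by
  have hsum : 0 ≤ ∑ i ∈ range n, ‖d i‖ := Finset.sum_nonneg fun i _ => norm_nonneg _
  by_contra hlt
  push Not at hlt
  rcases n with _ | n
  · simp at h
  have h1 : ‖r‖ ^ (n + 1) ≤ (∑ i ∈ range (n + 1), ‖d i‖) * ‖r‖ ^ n := by
    rw [← norm_pow, eq_neg_of_add_eq_zero_left h, norm_neg, Finset.sum_mul]
    refine (norm_sum_le _ _).trans (Finset.sum_le_sum fun i hi => ?_)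
    rw [norm_mul, norm_pow]
    exact mul_le_mul_of_nonneg_left (pow_le_pow_right₀ (by linarith)
      (Nat.le_of_lt_succ (mem_range.1 hi))) (norm_nonneg _)
  rw [pow_succ'] at h1
  have h2 := le_of_mul_le_mul_right h1 (pow_pos (by linarith) n)
  linarith

/-- **A quotient integral over the polynomials is a polynomial.** -/
theorem exists_quotient_polynomial (hE : ∀ i, IsEFunction (f i))
    {A B : MvPolynomial (Fin m) (Polynomial QBar)} (hB : serHom QBar f B ≠ 0) {n : ℕ}
    {c : ℕ → Polynomial QBar}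
    (h : serHom QBar f (A ^ n + ∑ i ∈ range n, MvPolynomial.C (c i) * A ^ i * B ^ (n - i)) = 0) :
    ∃ H : Polynomial QBar, serHom QBar f A = (H : PowerSeries QBar) * serHom QBar f B := by
  classical
  obtain ⟨ι, hι⟩ : ∃ ι, ι = algebraMap QBar ℂ := ⟨_, rfl⟩
  obtain ⟨a, hadef⟩ : ∃ a, a = fun z => funHom f z (toC m A) := ⟨_, rfl⟩
  obtain ⟨b, hbdef⟩ : ∃ b, b = fun z => funHom f z (toC m B) := ⟨_, rfl⟩
  have haA : ∀ z, AnalyticAt ℂ a z := fun z => hadef ▸ (differentiable_funHom hE _).analyticAt z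
  have hbA : ∀ z, AnalyticAt ℂ b z := fun z => hbdef ▸ (differentiable_funHom hE _).analyticAt z
  have hb0 : ∀ z, ¬∀ᶠ w in 𝓝 z, b w = 0 := fun z hz => by
    have h1 := AnalyticOnNhd.eqOn_zero_of_preconnected_of_eventuallyEq_zero
      (fun w _ => hbA w) isPreconnected_univ (Set.mem_univ z) hz
    have h2 : serHom ℂ f (toC m B) = 0 :=
      (serHom_eq_zero_iff hE _).2 fun w => by simpa [hbdef] using h1 (Set.mem_univ w)
    rw [serHom_toC] at h2
    refine hB (PowerSeries.ext fun k => ι.injective ?_)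
    have h3 := congrArg (PowerSeries.coeff k) h2
    rw [PowerSeries.coeff_map, map_zero] at h3
    rw [map_zero, map_zero, hι, h3]
  -- the equation at each point, and the bound
  obtain ⟨N, hN⟩ : ∃ N, N = (range n).sup fun i => (c i).natDegree := ⟨_, rfl⟩
  obtain ⟨M, hM⟩ : ∃ M : ℝ, M = 1 + ∑ i ∈ range n, ∑ e ∈ range (N + 1), ‖((c i).map ι).coeff e‖ :=
    ⟨_, rfl⟩
  have hbd : ∀ z, b z ≠ 0 → ‖a z / b z‖ ≤ M * (1 + ‖z‖) ^ N := by
    intro z hz
    have h0 : funHom f z (toC m (A ^ n +
        ∑ i ∈ range n, MvPolynomial.C (c i) * A ^ i * B ^ (n - i))) = 0 :=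
      (serHom_eq_zero_iff hE _).1 (by rw [serHom_toC, h, map_zero]) z
    have hC : ∀ q : Polynomial QBar,
        funHom f z (toC m (MvPolynomial.C q)) = (q.map ι).eval z := fun q => by
      simp [funHom, toC, hι]
    simp only [map_add, map_pow, map_sum, map_mul, hC] at h0
    rw [show funHom f z (toC m A) = a z from (congrFun hadef z).symm,
      show funHom f z (toC m B) = b z from (congrFun hbdef z).symm] at h0
    have h1 : (a z / b z) ^ n + ∑ i ∈ range n, ((c i).map ι).eval z * (a z / b z) ^ i = 0 := by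
      refine mul_right_cancel₀ (pow_ne_zero n hz) ?_
      rw [zero_mul, add_mul, div_pow, div_mul_cancel₀ _ (pow_ne_zero n hz), Finset.sum_mul, ← h0]
      refine congrArg _ (Finset.sum_congr rfl fun i hi => ?_)
      rw [← Nat.add_sub_cancel' (mem_range.1 hi).le, pow_add, Nat.add_sub_cancel_left, div_pow]
      field_simp
    refine (norm_le_of_root h1).trans ?_
    have h2 : (1 : ℝ) ≤ (1 + ‖z‖) ^ N :=
      one_le_pow₀ (le_add_of_nonneg_right (norm_nonneg z))
    rw [hM, add_mul, one_mul, Finset.sum_mul]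
    refine add_le_add h2 (Finset.sum_le_sum fun i hi => norm_eval_le _ ?_ z)
    exact Polynomial.natDegree_map_le.trans
      (hN ▸ Finset.le_sup (f := fun i => (c i).natDegree) hi)
  -- the quotient, continued
  obtain ⟨Hf, hHf⟩ : ∃ Hf : ℂ → ℂ, Hf = fun z => limUnder (𝓝[≠] z) fun w => a w / b w :=
    ⟨_, rfl⟩
  have hloc : ∀ z, ∃ q, AnalyticAt ℂ q z ∧ ∀ᶠ w in 𝓝[≠] z, b w ≠ 0 ∧ a w / b w = q w := by
    intro z
    have hne : ∀ᶠ w in 𝓝[≠] z, b w ≠ 0 := by
      refine ((hbA z).eventually_eq_zero_or_eventually_ne_zero).resolve_left (hb0 z)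
    refine exists_quotient_eventually (haA z) (hbA z) (hb0 z) (M := M * (2 + ‖z‖) ^ N) ?_
    filter_upwards [hne, (Metric.ball_mem_nhds z one_pos : _ ∈ 𝓝 z) |>
      fun h => nhdsWithin_le_nhds h] with w hw hw1
    have h1 := hbd w hw
    rw [norm_div, div_le_iff₀ (norm_pos_iff.2 hw)] at h1
    refine h1.trans (mul_le_mul_of_nonneg_right (mul_le_mul_of_nonneg_left
      (pow_le_pow_left₀ (by positivity) ?_ N) (hM ▸ by positivity)) (norm_nonneg _))
    rw [Metric.mem_ball, dist_eq_norm] at hw1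
    linarith [norm_le_norm_add_norm_sub' w z]
  have hHfq : ∀ z q, AnalyticAt ℂ q z → (∀ᶠ w in 𝓝[≠] z, b w ≠ 0 ∧ a w / b w = q w) →
      Hf z = q z := fun z q hq he => by
    have h : Tendsto (fun w => a w / b w) (𝓝[≠] z) (𝓝 (q z)) :=
      (hq.continuousAt.tendsto.mono_left nhdsWithin_le_nhds).congr'
        (he.mono fun w hw => hw.2.symm)
    rw [hHf]
    exact h.limUnder_eq
  have hval : ∀ z, b z ≠ 0 → Hf z = a z / b z := fun z hz => by
    refine hHfq z (fun w => a w / b w) ((haA z).div (hbA z) hz) ?_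
    filter_upwards [((hbA z).continuousAt.eventually_ne hz).filter_mono nhdsWithin_le_nhds]
      with w hw
    exact ⟨hw, rfl⟩
  have hdiff : Differentiable ℂ Hf := fun z => by
    obtain ⟨q, hq, he⟩ := hloc z
    refine (hq.differentiableAt).congr_of_eventuallyEq ?_
    rw [EventuallyEq]
    obtain ⟨U, hU, hU'⟩ := eventually_nhdsWithin_iff.1 he |>.exists_mem
    filter_upwards [hU] with w hw
    by_cases hwz : w = z
    · rw [hwz]; exact hHfq z q hq he
    · rw [hval w (hU' w hw hwz).1, (hU' w hw hwz).2]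
  have hgrow : ∀ z, ‖Hf z‖ ≤ M * (1 + ‖z‖) ^ N := by
    intro z
    have hne : ∀ᶠ w in 𝓝[≠] z, b w ≠ 0 :=
      ((hbA z).eventually_eq_zero_or_eventually_ne_zero).resolve_left (hb0 z)
    refine le_of_tendsto_of_tendsto (b := 𝓝[≠] z)
      ((hdiff.continuous.norm.tendsto z).mono_left nhdsWithin_le_nhds)
      (((by fun_prop : Continuous fun w : ℂ => M * (1 + ‖w‖) ^ N).tendsto z).mono_left
        nhdsWithin_le_nhds) ?_
    filter_upwards [hne] with w hw
    rw [hval w hw]
    exact hbd w hw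
  obtain ⟨p, hp⟩ := exists_polynomial_of_growth hdiff hgrow
  -- back to the algebraic numbers
  have hser : serHom ℂ f (toC m A) = (p : PowerSeries ℂ) * serHom ℂ f (toC m B) := by
    have h1 : ∀ z, funHom f z (toC m A - MvPolynomial.C p * toC m B) = 0 := by
      intro z
      have hcont : Continuous fun w => a w - p.eval w * b w := by
        have h2 : Differentiable ℂ a := hadef ▸ differentiable_funHom hE _
        have h3 : Differentiable ℂ b := hbdef ▸ differentiable_funHom hE _
        exact h2.continuous.sub (p.continuous.mul h3.continuous)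
      have hne : ∀ᶠ w in 𝓝[≠] z, b w ≠ 0 :=
        ((hbA z).eventually_eq_zero_or_eventually_ne_zero).resolve_left (hb0 z)
      have h4 : a z - p.eval z * b z = 0 := by
        refine tendsto_nhds_unique (l := 𝓝[≠] z) ((hcont.tendsto z).mono_left nhdsWithin_le_nhds)
          (tendsto_const_nhds.congr' ?_)
        filter_upwards [hne] with w hw
        rw [← hp w, hval w hw, div_mul_cancel₀ _ hw, sub_self]
      simpa [funHom, hadef, hbdef] using h4
    have h2 := (serHom_eq_zero_iff hE _).2 h1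
    rw [map_sub, map_mul, sub_eq_zero] at h2
    simpa [serHom] using h2
  obtain ⟨lam, hlam⟩ := (Algebra.linearMap QBar ℂ).exists_leftInverse_of_injective
    (LinearMap.ker_eq_bot.2 (algebraMap QBar ℂ).injective)
  refine ⟨∑ i ∈ range (p.natDegree + 1), Polynomial.monomial i (lam (p.coeff i)), ?_⟩
  have hl : ∀ x : QBar, lam (algebraMap QBar ℂ x) = x := fun x => LinearMap.congr_fun hlam x
  ext k
  rw [serHom_toC, serHom_toC] at hser
  have h1 := congrArg (fun g => lam (PowerSeries.coeff k g)) hser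
  simp only [PowerSeries.coeff_map, hl, PowerSeries.coeff_mul, map_sum] at h1
  rw [h1, PowerSeries.coeff_mul]
  refine congrArg _ (Finset.sum_congr rfl fun x _ => ?_)
  have h3 : ∀ i, (∑ j ∈ range (p.natDegree + 1),
      Polynomial.monomial j (lam (p.coeff j))).coeff i = lam (p.coeff i) := fun i => by
    simp only [Polynomial.finsetSum_coeff, Polynomial.coeff_monomial, Finset.sum_ite_eq', mem_range]
    split_ifs with hi
    · rfl
    · rw [Polynomial.coeff_eq_zero_of_natDegree_lt (by omega), map_zero]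
  rw [Polynomial.coeff_coe, Polynomial.coeff_coe, h3, mul_comm _ (algebraMap QBar ℂ _),
    ← Algebra.smul_def, map_smul, smul_eq_mul, mul_comm]

/-- The rational functions over the algebraic numbers. -/
abbrev RatField : Type := FractionRing (Polynomial QBar)

/-- The rational functions inside the Laurent series at the origin. -/
def ratToLaurent : RatField →+* LaurentSeries QBar :=
  IsFractionRing.lift (g := (HahnSeries.ofPowerSeries ℤ QBar).comp
    Polynomial.coeToPowerSeries.ringHom)
    (HahnSeries.ofPowerSeries_injective.comp fun _ _ h => Polynomial.coe_inj.1 h)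

theorem ratToLaurent_algebraMap (p : Polynomial QBar) :
    ratToLaurent (algebraMap (Polynomial QBar) RatField p) =
      HahnSeries.ofPowerSeries ℤ QBar (p : PowerSeries QBar) := by
  rw [ratToLaurent, IsFractionRing.lift_algebraMap]
  rfl

/-- The functions as Laurent series. -/
def funSeries (f : Fin m → PowerSeries ℚ) (i : Fin m) : LaurentSeries QBar :=
  HahnSeries.ofPowerSeries ℤ QBar (PowerSeries.map (algebraMap ℚ QBar) (f i))

/-- A polynomial over the rational functions, evaluated at the functions. -/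
def evalFun (f : Fin m → PowerSeries ℚ) :
    MvPolynomial (Fin m) RatField →+* LaurentSeries QBar :=
  MvPolynomial.eval₂Hom ratToLaurent (funSeries f)

/-- Denominators cleared. -/
theorem exists_clear (P : MvPolynomial (Fin m) RatField) :
    ∃ (d : Polynomial QBar) (P₀ : MvPolynomial (Fin m) (Polynomial QBar)), d ≠ 0 ∧
      P₀.support ⊆ P.support ∧
      MvPolynomial.map (algebraMap (Polynomial QBar) RatField) P₀ =
        MvPolynomial.C (algebraMap (Polynomial QBar) RatField d) * P := by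
  classical
  obtain ⟨⟨d, hd⟩, hd'⟩ := IsLocalization.exist_integer_multiples
    (nonZeroDivisors (Polynomial QBar)) P.support fun μ => P.coeff μ
  choose x hx using hd'
  refine ⟨d, ∑ μ ∈ P.support.attach, MvPolynomial.monomial μ.1 (x μ.1 μ.2),
    nonZeroDivisors.ne_zero hd, fun ν hν => ?_, ?_⟩
  · by_contra hν'
    rw [MvPolynomial.mem_support_iff, MvPolynomial.coeff_sum] at hν
    refine hν (Finset.sum_eq_zero fun μ _ => ?_)
    rw [MvPolynomial.coeff_monomial, if_neg]
    exact fun h => hν' (h ▸ μ.2)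
  · conv_rhs => rw [P.as_sum, Finset.mul_sum, ← Finset.sum_attach P.support]
    rw [map_sum]
    refine Finset.sum_congr rfl fun μ _ => ?_
    rw [MvPolynomial.map_monomial, MvPolynomial.C_mul_monomial, hx, Algebra.smul_def]

theorem evalFun_map (P : MvPolynomial (Fin m) (Polynomial QBar)) :
    evalFun f (MvPolynomial.map (algebraMap (Polynomial QBar) RatField) P) =
      HahnSeries.ofPowerSeries ℤ QBar (serHom QBar f P) := by
  rw [← RingHom.comp_apply, ← RingHom.comp_apply (HahnSeries.ofPowerSeries ℤ QBar)]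
  congr 1
  refine MvPolynomial.ringHom_ext (fun c => ?_) fun i => ?_
  · simp [evalFun, serHom, ratToLaurent_algebraMap]
  · simp [evalFun, serHom, funSeries]

/-- The relations over the rational functions and over the polynomials agree. -/
theorem serHom_eq_zero_of_clear {P : MvPolynomial (Fin m) RatField} (hP : evalFun f P = 0)
    {d : Polynomial QBar} {P₀ : MvPolynomial (Fin m) (Polynomial QBar)}
    (h : MvPolynomial.map (algebraMap (Polynomial QBar) RatField) P₀ =
      MvPolynomial.C (algebraMap (Polynomial QBar) RatField d) * P) : serHom QBar f P₀ = 0 := by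
  refine HahnSeries.ofPowerSeries_injective (Γ := ℤ) ?_
  rw [← evalFun_map, h, map_mul, hP, mul_zero, map_zero]

/-- **The field of the functions is regular.** -/
theorem mem_range_of_isAlgebraic (hE : ∀ i, IsEFunction (f i)) {r s : MvPolynomial (Fin m) RatField}
    {p : Polynomial RatField} (hp0 : p ≠ 0)
    (hp : Polynomial.eval₂ ratToLaurent (evalFun f r / evalFun f s) p = 0) :
    evalFun f r / evalFun f s ∈ ratToLaurent.range := by
  classical
  rcases eq_or_ne (evalFun f s) 0 with hs0 | hs0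
  · exact ⟨0, by rw [map_zero, hs0, div_zero]⟩
  obtain ⟨p₁, hp₁⟩ : ∃ p₁, p₁ = p * Polynomial.C p.leadingCoeff⁻¹ := ⟨_, rfl⟩
  have hmon : p₁.Monic := hp₁ ▸ Polynomial.monic_mul_leadingCoeff_inv hp0
  obtain ⟨⟨d, hd⟩, hd'⟩ :=
    IsLocalization.exist_integer_multiples (nonZeroDivisors (Polynomial QBar))
    (range p₁.natDegree) fun i => p₁.coeff i
  choose x hx using hd'
  obtain ⟨dr, r₀, hdr, -, hr⟩ := exists_clear r
  obtain ⟨ds, s₀, hds, -, hs⟩ := exists_clear s
  obtain ⟨o, ho⟩ : ∃ o, o = algebraMap (Polynomial QBar) RatField := ⟨_, rfl⟩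
  obtain ⟨A, hA⟩ : ∃ A, A = MvPolynomial.C (d * ds) * r₀ := ⟨_, rfl⟩
  obtain ⟨B, hB⟩ : ∃ B, B = MvPolynomial.C dr * s₀ := ⟨_, rfl⟩
  have hd0 : d ≠ 0 := nonZeroDivisors.ne_zero hd
  have hne : ∀ q : Polynomial QBar, q ≠ 0 → ratToLaurent (o q) ≠ 0 := fun q hq =>
    (map_ne_zero ratToLaurent).2 fun h => hq (IsFractionRing.injective _ _
      ((ho ▸ h : algebraMap (Polynomial QBar) RatField q = 0).trans (map_zero _).symm))
  obtain ⟨g, hg⟩ : ∃ g, g = evalFun f r / evalFun f s := ⟨_, rfl⟩
  have hevA : HahnSeries.ofPowerSeries ℤ QBar (serHom QBar f A) =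
      ratToLaurent (o d) * ratToLaurent (o ds) * ratToLaurent (o dr) * evalFun f r := by
    rw [← evalFun_map, hA, map_mul, MvPolynomial.map_C, hr, map_mul, map_mul, map_mul, ho]
    simp [evalFun]
    ring
  have hevB : HahnSeries.ofPowerSeries ℤ QBar (serHom QBar f B) =
      ratToLaurent (o ds) * ratToLaurent (o dr) * evalFun f s := by
    rw [← evalFun_map, hB, map_mul, MvPolynomial.map_C, hs, map_mul, map_mul, ho]
    simp [evalFun]
    ring
  have hB0 : serHom QBar f B ≠ 0 := fun h => by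
    rw [h, map_zero, eq_comm] at hevB
    exact mul_ne_zero (mul_ne_zero (hne _ hds) (hne _ hdr)) hs0 hevB
  have hAg : HahnSeries.ofPowerSeries ℤ QBar (serHom QBar f A) =
      ratToLaurent (o d) * g * HahnSeries.ofPowerSeries ℤ QBar (serHom QBar f B) := by
    rw [hevA, hevB, hg]
    field_simp
  have hroot : Polynomial.eval₂ ratToLaurent g p₁ = 0 := by
    rw [hp₁, Polynomial.eval₂_mul, hg, hp, zero_mul]
  obtain ⟨H, hH⟩ := exists_quotient_polynomial hE (A := A) hB0 (n := p₁.natDegree)
    (c := fun i => if hi : i ∈ range p₁.natDegree then d ^ (p₁.natDegree - i - 1) * x i hi else 0)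
    (by
      refine HahnSeries.ofPowerSeries_injective (Γ := ℤ) ?_
      have hC : ∀ q : Polynomial QBar, HahnSeries.ofPowerSeries ℤ QBar
          (serHom QBar f (MvPolynomial.C q)) = ratToLaurent (o q) := fun q => by
        rw [ho, ratToLaurent_algebraMap]
        simp [serHom]
      obtain ⟨S, hS⟩ : ∃ S, S = HahnSeries.ofPowerSeries ℤ QBar (serHom QBar f B) := ⟨_, rfl⟩
      simp only [map_add, map_pow, map_sum, map_mul, hC, hAg, map_zero, ← hS]
      rw [Polynomial.eval₂_eq_sum_range, Finset.sum_range_succ, hmon.coeff_natDegree, map_one,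
        one_mul] at hroot
      refine Eq.trans ?_ (mul_zero ((ratToLaurent (o d) * S) ^ p₁.natDegree))
      rw [← hroot, mul_add, Finset.mul_sum, add_comm]
      congr 1
      · refine Finset.sum_congr rfl fun i hi => ?_
        obtain ⟨j, hj⟩ := Nat.exists_eq_add_of_lt (mem_range.1 hi)
        rw [dif_pos hi, hj, show i + j + 1 - i - 1 = j by omega,
          show i + j + 1 - i = j + 1 by omega, map_mul, map_mul, map_pow, map_pow]
        rw [show o (x i hi) = o d * p₁.coeff i by rw [ho, hx, Algebra.smul_def], map_mul]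
        ring
      · ring)
  refine ⟨o H / o d, ?_⟩
  have h1 := congrArg (HahnSeries.ofPowerSeries ℤ QBar) hH
  rw [map_mul, hAg, ← ratToLaurent_algebraMap, ← ho] at h1
  have h2 := mul_right_cancel₀ (fun h0 => hB0 (HahnSeries.ofPowerSeries_injective
    (h0.trans (map_zero _).symm))) h1
  rw [map_div₀, div_eq_iff (hne d hd0), ← hg, mul_comm, h2]

end FA.BeukersTheorem
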