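import Mathlib.RingTheory.PowerSeries.Inverse
import Mathlib.RingTheory.PowerSeries.Derivative
import Mathlib.Algebra.MvPolynomial.PDeriv

/-!
# The derivation of a system on the polynomials, and its formal solutions

`T f' = q + Q f` gives the derivation `T d/dX + ∑ (q i + ∑ Q i j Y j) ∂/∂Y i` of the polynomials; at
a regular point there are formal solutions, and forms killed by it with any initial value.
-/

set_option autoImplicit false

noncomputable section

namespace FA.BeukersTheorem

open Finset MvPolynomial

variable {m : ℕ} {R S : Type*} [CommRing R] [CommRing S]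

/-- A map applied to the coefficients. -/
def coeffDer (D : R → R) (w : MvPolynomial (Fin m) R) : MvPolynomial (Fin m) R :=
  ∑ μ ∈ w.support, monomial μ (D (w.coeff μ))

theorem coeff_coeffDer {D : R → R} (hD : D 0 = 0) (w : MvPolynomial (Fin m) R)
    (μ : Fin m →₀ ℕ) : (coeffDer D w).coeff μ = D (w.coeff μ) := by
  classical
  rw [coeffDer, coeff_sum]
  simp only [coeff_monomial, Finset.sum_ite_eq', mem_support_iff]
  split_ifs with h
  · rfl
  · rw [not_not.1 h, hD]

/-- The derivation of the system. -/
def delta (D : R → R) (T : R) (lin : Fin m → MvPolynomial (Fin m) R)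
    (w : MvPolynomial (Fin m) R) : MvPolynomial (Fin m) R :=
  C T * coeffDer D w + ∑ i, lin i * pderiv i w

/-- The affine forms of the system. -/
def linForm (q : Fin m → R) (Q : Matrix (Fin m) (Fin m) R) (i : Fin m) :
    MvPolynomial (Fin m) R :=
  C (q i) + ∑ j, C (Q i j) * X j

theorem delta_add {D : R → R} (hD : ∀ a b, D (a + b) = D a + D b) (T : R)
    (lin : Fin m → MvPolynomial (Fin m) R) (v w : MvPolynomial (Fin m) R) :
    delta D T lin (v + w) = delta D T lin v + delta D T lin w := by
  have h0 : D 0 = 0 := by simpa using hD 0 0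
  have h : coeffDer D (v + w) = coeffDer D v + coeffDer D w := by
    ext μ
    simp [coeff_coeffDer h0, hD]
  simp only [delta, h, map_add, mul_add, Finset.sum_add_distrib]
  abel

theorem coeffDer_monomial {D : R → R} (hD : D 0 = 0) (μ : Fin m →₀ ℕ) (a : R) :
    coeffDer D (monomial μ a) = monomial μ (D a) := by
  classical
  ext ν
  rw [coeff_coeffDer hD, coeff_monomial, coeff_monomial]
  split_ifs <;> simp [hD]

theorem delta_mul {D : R → R} (hD : ∀ a b, D (a + b) = D a + D b)
    (hL : ∀ a b, D (a * b) = D a * b + a * D b) (T : R) (lin : Fin m → MvPolynomial (Fin m) R)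
    (v w : MvPolynomial (Fin m) R) :
    delta D T lin (v * w) = delta D T lin v * w + v * delta D T lin w := by
  have h0 : D 0 = 0 := by simpa using hD 0 0
  induction v using MvPolynomial.induction_on' with
  | add p q hp hq => rw [add_mul, delta_add hD, hp, hq, delta_add hD]; ring
  | monomial μ a =>
    induction w using MvPolynomial.induction_on' with
    | add p q hp hq => rw [mul_add, delta_add hD, hp, hq, delta_add hD]; ring
    | monomial ν b =>
      have h : coeffDer D (monomial μ a * monomial ν b) =
          coeffDer D (monomial μ a) * monomial ν b + monomial μ a * coeffDer D (monomial ν b) := by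
        rw [monomial_mul, coeffDer_monomial h0, coeffDer_monomial h0, coeffDer_monomial h0,
          monomial_mul, monomial_mul, hL, map_add]
      simp only [delta, h, Derivation.leibniz, smul_eq_mul, mul_add, add_mul,
        Finset.sum_add_distrib, Finset.sum_mul, Finset.mul_sum]
      ring_nf

theorem map_delta {DR : R → R} {DS : S → S} (φ : R →+* S) (h : ∀ a, DS (φ a) = φ (DR a))
    (hR : DR 0 = 0) (T : R) (lin : Fin m → MvPolynomial (Fin m) R)
    (w : MvPolynomial (Fin m) R) :
    delta DS (φ T) (fun i => MvPolynomial.map φ (lin i)) (MvPolynomial.map φ w) =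
      MvPolynomial.map φ (delta DR T lin w) := by
  have hS : DS 0 = 0 := by simpa [hR] using h 0
  have e : coeffDer DS (MvPolynomial.map φ w) = MvPolynomial.map φ (coeffDer DR w) := by
    ext μ
    rw [coeff_coeffDer hS, coeff_map, coeff_map, coeff_coeffDer hR, h]
  simp only [delta, e, map_add, map_mul, map_sum, map_C, pderiv_map]

variable {K : Type*} [Field K]

/-- The coefficients of the solution of `Y' = M Y`. -/
def solSeries {ι : Type*} [Fintype ι] (M : ι → ι → PowerSeries K) (y₀ : ι → K) : ℕ → ι → K
  | 0 => y₀
  | k + 1 => fun i =>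
      (∑ a : Fin (k + 1), ∑ j, PowerSeries.coeff a (M i j) * solSeries M y₀ (k - a) j) / (k + 1)
  termination_by k => k
  decreasing_by omega

/-- **Formal solutions at a regular point.** -/
theorem exists_series_solution [CharZero K] {ι : Type*} [Fintype ι] {T : PowerSeries K}
    (hT : PowerSeries.constantCoeff T ≠ 0) (M : ι → ι → PowerSeries K) (y₀ : ι → K) :
    ∃ Z : ι → PowerSeries K, (∀ i, T * PowerSeries.derivative K (Z i) = ∑ j, M i j * Z j) ∧
      ∀ i, PowerSeries.constantCoeff (Z i) = y₀ i := by
  obtain ⟨Z, hZ⟩ : ∃ Z : ι → PowerSeries K,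
      Z = fun i => PowerSeries.mk fun k => solSeries (fun i j => T⁻¹ * M i j) y₀ k i := ⟨_, rfl⟩
  refine ⟨Z, fun i => ?_, fun i => ?_⟩
  · have key : PowerSeries.derivative K (Z i) = ∑ j, T⁻¹ * M i j * Z j := by
      ext k
      rw [PowerSeries.coeff_derivative, hZ, PowerSeries.coeff_mk, map_sum, solSeries,
        div_mul_cancel₀ _ (Nat.cast_add_one_ne_zero k), Finset.sum_comm]
      refine Finset.sum_congr rfl fun j _ => ?_
      rw [PowerSeries.coeff_mul, Finset.Nat.sum_antidiagonal_eq_sum_range_succ_mk, Finset.sum_range]
      simp only [PowerSeries.coeff_mk]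
    rw [key, Finset.mul_sum]
    refine Finset.sum_congr rfl fun j _ => ?_
    rw [← mul_assoc, ← mul_assoc, PowerSeries.mul_inv_cancel _ hT, one_mul]
  · rw [hZ, ← PowerSeries.coeff_zero_eq_constantCoeff_apply, PowerSeries.coeff_mk, solSeries]

/-- A series with derivative zero and value zero vanishes. -/
theorem eq_zero_of_mul_derivative [CharZero K] {T g : PowerSeries K} (hT : T ≠ 0)
    (h : T * PowerSeries.derivative K g = 0) (h0 : PowerSeries.constantCoeff g = 0) : g = 0 := by
  have hd := (mul_eq_zero.1 h).resolve_left hT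
  ext k
  rcases k with _ | k
  · simpa using h0
  · have h1 := congrArg (PowerSeries.coeff k) hd
    rw [PowerSeries.coeff_derivative, map_zero] at h1
    rw [map_zero]
    exact (mul_eq_zero.1 h1).resolve_right (Nat.cast_add_one_ne_zero k)

/-- The inverse of the flow: forms killed by the derivation with initial value `Y i`. -/
theorem exists_flow [CharZero K] {T : PowerSeries K} (hT : PowerSeries.constantCoeff T ≠ 0)
    (q : Fin m → PowerSeries K) (Q : Matrix (Fin m) (Fin m) (PowerSeries K)) :
    ∃ θ : Fin m → MvPolynomial (Fin m) (PowerSeries K),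
      (∀ i, delta (PowerSeries.derivative K) T (linForm q Q) (θ i) = 0) ∧
      (∀ i, MvPolynomial.map PowerSeries.constantCoeff (θ i) = X i) ∧
      (∀ i, (θ i).totalDegree ≤ 1) ∧ ((∀ i, q i = 0) → ∀ i, (θ i).coeff 0 = 0) := by
  classical
  obtain ⟨M, hM⟩ : ∃ M : Option (Fin m) → Option (Fin m) → PowerSeries K,
      M = fun r s => s.elim 0 fun j => r.elim (q j) fun l => -Q j l := ⟨_, rfl⟩
  choose Z hZ hZ0 using fun i : Fin m =>
    exists_series_solution hT M fun r => if r = some i then 1 else 0
  refine ⟨fun i => (∑ j, C (Z i (some j)) * X j) - C (Z i none), fun i => ?_, fun i => ?_,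
    fun i => ?_, fun hq i => ?_⟩
  · have hadd : ∀ a b, PowerSeries.derivative K (a + b) =
        PowerSeries.derivative K a + PowerSeries.derivative K b := map_add _
    obtain ⟨δ, hδ⟩ : ∃ δ, δ = delta (PowerSeries.derivative K) T (linForm q Q) := ⟨_, rfl⟩
    have hδsub : ∀ v w, δ (v - w) = δ v - δ w := fun v w => by
      have h := delta_add hadd T (linForm q Q) (v - w) w
      rw [sub_add_cancel, ← hδ] at h
      rw [h, add_sub_cancel_right]
    have hδsum : ∀ (s : Finset (Fin m)) (g : Fin m → MvPolynomial (Fin m) (PowerSeries K)),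
        δ (∑ j ∈ s, g j) = ∑ j ∈ s, δ (g j) := fun s g => by
      refine Finset.induction_on s ?_ fun a s ha ih => ?_
      · simp [hδ, delta, coeffDer]
      · rw [Finset.sum_insert ha, Finset.sum_insert ha, ← ih, hδ, delta_add hadd]
    have hδC : ∀ a, δ (C a) = C (T * PowerSeries.derivative K a) := fun a => by
      rw [hδ, delta, ← monomial_zero', coeffDer_monomial (map_zero _), monomial_zero']
      simp
    have hδX : ∀ a j, δ (C a * X j) =
        C (T * PowerSeries.derivative K a) * X j + C a * linForm q Q j := fun a j => by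
      rw [hδ, delta, C_mul_X_eq_monomial, coeffDer_monomial (map_zero _), ← C_mul_X_eq_monomial,
        ← C_mul_X_eq_monomial, ← mul_assoc, ← map_mul]
      congr 1
      rw [Finset.sum_eq_single j (fun l _ hl => ?_) (fun h => absurd (mem_univ _) h)]
      · simp [mul_comm]
      · simp [pderiv_X_of_ne (Ne.symm hl)]
    rw [← hδ, hδsub, hδsum, hδC]
    simp only [hδX, hZ i, hM, linForm]
    simp only [Fintype.sum_option, Option.elim_none, Option.elim_some, zero_mul, zero_add,
      neg_mul, map_sum, map_neg, map_mul, mul_add, Finset.mul_sum, Finset.sum_mul,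
      Finset.sum_add_distrib]
    rw [Finset.sum_comm (f := fun j l => C (Z i (some j)) * (C (Q j l) * X l))]
    rw [add_comm (∑ x, C (Z i (some x)) * C (q x)), ← add_assoc, ← Finset.sum_add_distrib,
      Finset.sum_eq_zero fun l _ => ?_, zero_add, ← Finset.sum_sub_distrib,
      Finset.sum_eq_zero fun l _ => ?_]
    · ring
    · rw [← Finset.sum_add_distrib, Finset.sum_eq_zero fun j _ => ?_]
      ring
  · simp only [map_sub, map_sum, map_mul, map_C, map_X, hZ0]
    simp
  · refine (totalDegree_sub _ _).trans (max_le ((totalDegree_finsetSum _ _).trans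
      (Finset.sup_le fun j _ => (totalDegree_mul _ _).trans ?_)) (by simp))
    rw [totalDegree_C, zero_add]
    exact (totalDegree_X j).le
  · have hc : Z i none = 0 := by
      refine eq_zero_of_mul_derivative (T := T) (fun h => hT (by rw [h, map_zero])) ?_
        (by simp [hZ0])
      rw [hZ, Fintype.sum_option, hM]
      simp [hq]
    simp [hc, coeff_sum]

end FA.BeukersTheorem
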