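import Fermat.Agent.BeukersTheorem.BaseChange
import Fermat.Agent.BeukersTheorem.Regular
import Fermat.Agent.BeukersTheorem.Solutions
import Mathlib.LinearAlgebra.Matrix.ToLin
import Mathlib.LinearAlgebra.Dual.Lemmas
import Mathlib.LinearAlgebra.Matrix.Rank

/-!
# The relations at a regular point

A form killed by the derivation is a combination, over a field containing the series at `α`, of the
relations between the functions iff its initial value is the value at `α` of a relation. So the
values at `α` of the relations form a prime ideal.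
-/

set_option autoImplicit false

noncomputable section

namespace FA.BeukersTheorem

open Finset MvPolynomial
open FA.SiegelShidlovskii (IsEFunction)

variable {m : ℕ} {f : Fin m → PowerSeries ℚ} {α : QBar}

/-- An algebraically closed field containing the series at a point. -/
abbrev PointField : Type := AlgebraicClosure (LaurentSeries QBar)

/-- The expansion at `α`. -/
def atAlg (α : QBar) : Polynomial QBar →+* PowerSeries QBar :=
  Polynomial.coeToPowerSeries.ringHom.comp
    (Polynomial.compRingHom (Polynomial.X + Polynomial.C α))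

/-- The series in the point field. -/
def serPoint : PowerSeries QBar →+* PointField :=
  (algebraMap (LaurentSeries QBar) PointField).comp (HahnSeries.ofPowerSeries ℤ QBar)

theorem serPoint_injective : Function.Injective serPoint :=
  (algebraMap (LaurentSeries QBar) PointField).injective.comp HahnSeries.ofPowerSeries_injective

theorem atAlg_injective (α : QBar) : Function.Injective (atAlg α) := by
  rw [injective_iff_map_eq_zero]
  intro p hp
  simpa [atAlg, Polynomial.comp_eq_zero_iff] using hp

theorem constantCoeff_atAlg (α : QBar) (p : Polynomial QBar) :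
    PowerSeries.constantCoeff (atAlg α p) = p.eval α := by
  simp [atAlg, Polynomial.coeff_zero_eq_eval_zero, Polynomial.eval_comp]

theorem derivative_atAlg (α : QBar) (p : Polynomial QBar) :
    PowerSeries.derivative QBar (atAlg α p) = atAlg α (Polynomial.derivative p) := by
  simp [atAlg, PowerSeries.derivative_coe, Polynomial.derivative_comp]

/-- The relations between the functions. -/
def relIdeal (f : Fin m → PowerSeries ℚ) : Ideal (MvPolynomial (Fin m) (Polynomial QBar)) :=
  RingHom.ker (serHom QBar f)

/-- The relations extended to the point field. -/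
def pointIdeal (f : Fin m → PowerSeries ℚ) (α : QBar) : Ideal (MvPolynomial (Fin m) PointField) :=
  (relIdeal f).map (MvPolynomial.map (serPoint.comp (atAlg α)))

theorem serPoint_atAlg_injective (α : QBar) : Function.Injective (serPoint.comp (atAlg α)) :=
  serPoint_injective.comp (atAlg_injective α)

/-- The rational functions at `α`. -/
def ratToPoint (α : QBar) : RatField →+* PointField :=
  IsFractionRing.lift (serPoint_atAlg_injective α)

theorem ratToPoint_algebraMap (α : QBar) (p : Polynomial QBar) :
    ratToPoint α (algebraMap (Polynomial QBar) RatField p) = serPoint (atAlg α p) :=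
  IsFractionRing.lift_algebraMap _ _

/-- `pointIdeal` is the extension of the relations over the rational functions. -/
theorem pointIdeal_eq (f : Fin m → PowerSeries ℚ) (α : QBar) :
    pointIdeal f α = (RingHom.ker (evalFun f)).map (MvPolynomial.map (ratToPoint α)) := by
  have hcomp : ∀ P : MvPolynomial (Fin m) (Polynomial QBar), MvPolynomial.map (ratToPoint α)
      (MvPolynomial.map (algebraMap (Polynomial QBar) RatField) P) =
      (MvPolynomial.map (serPoint.comp (atAlg α)) P : MvPolynomial (Fin m) PointField) :=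
    fun P => by
    rw [MvPolynomial.map_map, show (ratToPoint α).comp (algebraMap (Polynomial QBar) RatField) =
      serPoint.comp (atAlg α) from RingHom.ext fun p => ratToPoint_algebraMap α p]
  refine le_antisymm (Ideal.map_le_iff_le_comap.2 fun P hP => ?_)
    (Ideal.map_le_iff_le_comap.2 fun P hP => ?_)
  · rw [Ideal.mem_comap, ← hcomp]
    refine Ideal.mem_map_of_mem _ ?_
    rw [relIdeal, RingHom.mem_ker] at hP
    rw [RingHom.mem_ker, evalFun_map, hP, map_zero]
  · obtain ⟨d, P₀, hd, -, h⟩ := exists_clear P
    have hP₀ := serHom_eq_zero_of_clear hP h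
    rw [Ideal.mem_comap]
    have h1 := congrArg (MvPolynomial.map (ratToPoint α)) h
    rw [hcomp, map_mul, MvPolynomial.map_C] at h1
    have hu : IsUnit (C (ratToPoint α (algebraMap (Polynomial QBar) RatField d)) :
        MvPolynomial (Fin m) PointField) := (isUnit_iff_ne_zero.2 ((map_ne_zero _).2 fun h =>
          hd (IsFractionRing.injective _ _ (h.trans (map_zero _).symm)))).map C
    rw [← Ideal.unit_mul_mem_iff_mem _ hu, ← h1]
    exact Ideal.mem_map_of_mem _ hP₀

/-- **The relations stay prime.** -/
theorem isPrime_pointIdeal (hE : ∀ i, IsEFunction (f i)) (α : QBar) :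
    (pointIdeal f α).IsPrime := by
  let _ : Algebra RatField PointField := (ratToPoint α).toAlgebra
  let _ : Algebra RatField (LaurentSeries QBar) := ratToLaurent.toAlgebra
  have h : (extIdeal PointField (RingHom.ker (aeval (R := RatField) (funSeries f)))).IsPrime := by
    refine isPrime_extIdeal fun g hg halg => ?_
    obtain ⟨r, s, hrs⟩ := (IntermediateField.mem_adjoin_range_iff RatField _ _).1 hg
    obtain ⟨p, hp0, hp⟩ := halg
    have hrs' : g = evalFun f r / evalFun f s := hrs
    have hp' : Polynomial.eval₂ ratToLaurent g p = 0 := hp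
    rw [hrs'] at hp' ⊢
    obtain ⟨x, hx⟩ := mem_range_of_isAlgebraic hE hp0 hp'
    exact IntermediateField.mem_bot.2 ⟨x, hx⟩
  rw [pointIdeal_eq]
  exact h

/-- The vectors with independent constant terms are independent in the point field. -/
theorem linearIndependent_serPoint {ι κ : Type*} [Fintype ι] [Fintype κ]
    (v : κ → ι → PowerSeries QBar)
    (h : LinearIndependent QBar fun k i => PowerSeries.constantCoeff (v k i)) :
    LinearIndependent PointField fun k i => serPoint (v k i) := by
  classical
  obtain ⟨Φ, hΦ⟩ : ∃ Φ, Φ = Fintype.linearCombination QBar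
      (fun k i => PowerSeries.constantCoeff (v k i)) := ⟨_, rfl⟩
  obtain ⟨lam, hlam⟩ := Φ.exists_leftInverse_of_injective
    (LinearMap.ker_eq_bot.2 (hΦ ▸ h.fintypeLinearCombination_injective))
  obtain ⟨G, hG⟩ : ∃ G : Matrix κ κ (PowerSeries QBar), G = Matrix.of fun k l =>
      ∑ i, PowerSeries.C (lam (Pi.single i 1) k) * v l i := ⟨_, rfl⟩
  have hG0 : G.map PowerSeries.constantCoeff = 1 := by
    ext k l
    have h1 : lam (fun i => PowerSeries.constantCoeff (v l i)) k = (1 : Matrix κ κ QBar) k l := by
      have h2 := LinearMap.congr_fun hlam (Pi.single l 1)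
      rw [LinearMap.comp_apply, hΦ, Fintype.linearCombination_apply_single, one_smul,
        LinearMap.id_apply] at h2
      rw [h2, Matrix.one_apply, Pi.single_apply]
    rw [← h1, pi_eq_sum_univ' fun i => PowerSeries.constantCoeff (v l i)]
    simp only [map_sum, map_smul, Finset.sum_apply, Pi.smul_apply, smul_eq_mul, hG,
      Matrix.map_apply, Matrix.of_apply, map_mul, PowerSeries.constantCoeff_C, mul_comm]
  have hdet : (G.map serPoint).det ≠ 0 := by
    rw [← RingHom.mapMatrix_apply, ← RingHom.map_det]
    refine fun h => one_ne_zero (α := QBar) ?_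
    rw [← Matrix.det_one (n := κ), ← hG0, ← RingHom.mapMatrix_apply, ← RingHom.map_det,
      serPoint_injective (h.trans (map_zero _).symm), map_zero]
  rw [Fintype.linearIndependent_iff]
  intro c hc
  refine congrFun (Matrix.eq_zero_of_mulVec_eq_zero hdet ?_)
  funext k
  simp only [Matrix.mulVec, dotProduct, Matrix.map_apply, hG, Matrix.of_apply, map_sum, map_mul,
    Finset.sum_mul, Pi.zero_apply]
  rw [Finset.sum_comm]
  refine Finset.sum_eq_zero fun i _ => ?_
  have h3 := congrFun hc i
  simp only [Finset.sum_apply, Pi.smul_apply, smul_eq_mul, Pi.zero_apply] at h3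
  rw [← mul_zero (serPoint (PowerSeries.C (lam (Pi.single i 1) k))), ← h3, Finset.mul_sum]
  exact Finset.sum_congr rfl fun l _ => by ring

/-- The values at `α` of the relations supported in `Δ`. -/
def relValues (f : Fin m → PowerSeries ℚ) (α : QBar) (Δ : Finset (Fin m →₀ ℕ)) :
    Submodule QBar (Δ → QBar) where
  carrier := {v | ∃ P ∈ relIdeal f, P.support ⊆ Δ ∧ ∀ μ : Δ, (P.coeff μ).eval α = v μ}
  zero_mem' := ⟨0, Ideal.zero_mem _, by simp, by simp⟩
  add_mem' := by
    classical
    rintro v w ⟨P, hP, hPs, hPv⟩ ⟨R, hR, hRs, hRw⟩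
    exact ⟨P + R, Ideal.add_mem _ hP hR,
      (MvPolynomial.support_add).trans (Finset.union_subset hPs hRs),
      fun μ => by simp [hPv, hRw]⟩
  smul_mem' := by
    rintro c v ⟨P, hP, hPs, hPv⟩
    refine ⟨C (Polynomial.C c) * P, Ideal.mul_mem_left _ _ hP, fun μ hμ => hPs ?_, fun μ => by
      simp [coeff_C_mul, hPv]⟩
    rw [mem_support_iff, coeff_C_mul] at hμ
    exact mem_support_iff.2 fun h => hμ (by rw [h, mul_zero])

/-- The pairing of a form with a vector. -/
def pairing {R : Type*} [CommRing R] (Δ : Finset (Fin m →₀ ℕ)) (Z : Δ → R)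
    (w : MvPolynomial (Fin m) R) : R :=
  ∑ μ : Δ, w.coeff μ * Z μ

variable {T : Polynomial QBar} {lin : Fin m → MvPolynomial (Fin m) (Polynomial QBar)}
  {Δ : Finset (Fin m →₀ ℕ)}

/-- `Δ` is closed under the derivation. -/
def IsClosedUnder (lin : Fin m → MvPolynomial (Fin m) (Polynomial QBar))
    (Δ : Finset (Fin m →₀ ℕ)) : Prop :=
  ∀ μ ∈ Δ, (∑ i, lin i * pderiv i (monomial μ 1)).support ⊆ Δ

/-- The matrix of the derivation on `Δ`. -/
def derMatrix (lin : Fin m → MvPolynomial (Fin m) (Polynomial QBar))
    (Δ : Finset (Fin m →₀ ℕ)) (μ ν : Δ) : Polynomial QBar :=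
  (∑ i, lin i * pderiv i (monomial (μ : Fin m →₀ ℕ) 1)).coeff ν

/-- `Z` solves the system adjoint to the derivation on `Δ`. -/
def IsPointSolution (α : QBar) (T : Polynomial QBar)
    (lin : Fin m → MvPolynomial (Fin m) (Polynomial QBar)) (Δ : Finset (Fin m →₀ ℕ))
    (Z : Δ → PowerSeries QBar) : Prop :=
  ∀ μ, atAlg α T * PowerSeries.derivative QBar (Z μ) =
    ∑ ν, atAlg α (derMatrix lin Δ μ ν) * Z ν

/-- The derivation at `α`. -/
def pointDelta (α : QBar) (T : Polynomial QBar)
    (lin : Fin m → MvPolynomial (Fin m) (Polynomial QBar)) :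
    MvPolynomial (Fin m) (PowerSeries QBar) → MvPolynomial (Fin m) (PowerSeries QBar) :=
  delta (PowerSeries.derivative QBar) (atAlg α T) fun i => MvPolynomial.map (atAlg α) (lin i)

theorem sum_lin_pderiv_eq {R : Type*} [CommRing R] (φ : Polynomial QBar →+* R)
    (w : MvPolynomial (Fin m) R) (hw : w.support ⊆ Δ) :
    ∑ i, MvPolynomial.map φ (lin i) * pderiv i w =
      ∑ μ : Δ, C (w.coeff μ) *
        MvPolynomial.map φ (∑ i, lin i * pderiv i (monomial (μ : Fin m →₀ ℕ) 1)) := by
  have hwd : w = ∑ μ : Δ, C (w.coeff μ) * monomial (μ : Fin m →₀ ℕ) 1 := by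
    conv_lhs => rw [w.as_sum]
    rw [Finset.sum_coe_sort Δ fun μ => C (w.coeff μ) * monomial μ 1]
    simp only [C_mul_monomial, mul_one]
    refine Finset.sum_subset hw fun μ _ hμ => ?_
    rw [notMem_support_iff.1 hμ, map_zero]
  conv_lhs => rw [hwd]
  simp only [map_sum, map_mul, Finset.mul_sum, ← pderiv_map, map_monomial, map_one]
  rw [Finset.sum_comm]
  refine Finset.sum_congr rfl fun μ _ => Finset.sum_congr rfl fun i _ => ?_
  rw [Derivation.leibniz, pderiv_C, smul_zero, add_zero, smul_eq_mul]
  ring

theorem pairing_pointDelta {Z : Δ → PowerSeries QBar} (hZ : IsPointSolution α T lin Δ Z)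
    {w : MvPolynomial (Fin m) (PowerSeries QBar)} (hw : w.support ⊆ Δ) :
    pairing Δ Z (pointDelta α T lin w) =
      atAlg α T * PowerSeries.derivative QBar (pairing Δ Z w) := by
  simp only [pairing, pointDelta, delta, coeff_add, coeff_C_mul,
    coeff_coeffDer (map_zero (PowerSeries.derivative QBar)), map_sum, Derivation.leibniz,
    smul_eq_mul, add_mul, mul_add, Finset.sum_add_distrib, Finset.mul_sum]
  rw [add_comm]
  congr 1
  · rw [sum_lin_pderiv_eq (atAlg α) w hw]
    simp only [coeff_sum, coeff_C_mul, coeff_map, Finset.sum_mul]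
    rw [Finset.sum_comm]
    refine Finset.sum_congr rfl fun μ _ => ?_
    rw [mul_left_comm, hZ μ, Finset.mul_sum]
    refine Finset.sum_congr rfl fun ν _ => ?_
    rw [derMatrix, coeff_sum, map_sum]
    ring
  · exact Finset.sum_congr rfl fun μ _ => by ring

theorem support_delta {P : MvPolynomial (Fin m) (Polynomial QBar)} (hP : P.support ⊆ Δ)
    (hΔ : IsClosedUnder lin Δ) :
    (delta (Polynomial.derivative (R := QBar)) T lin P).support ⊆ Δ := by
  classical
  intro ν hν
  by_contra hνΔ
  refine mem_support_iff.1 hν ?_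
  have h1 : (∑ i, lin i * pderiv i P).coeff ν = 0 := by
    have h2 := sum_lin_pderiv_eq (lin := lin) (RingHom.id (Polynomial QBar)) P hP
    simp only [MvPolynomial.map_id] at h2
    rw [h2, coeff_sum]
    refine Finset.sum_eq_zero fun μ _ => ?_
    rw [coeff_C_mul, notMem_support_iff.1 fun h => hνΔ (hΔ μ μ.2 h), mul_zero]
  rw [delta, coeff_add, coeff_C_mul, coeff_coeffDer (map_zero _), h1,
    notMem_support_iff.1 fun h => hνΔ (hP h), map_zero, mul_zero, add_zero]

variable {q : Fin m → Polynomial QBar} {Q : Matrix (Fin m) (Fin m) (Polynomial QBar)}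

/-- The relations are stable under the derivation. -/
theorem delta_mem_relIdeal
    (hf : ∀ i, (T : PowerSeries QBar) *
      PowerSeries.derivative QBar (PowerSeries.map (algebraMap ℚ QBar) (f i)) =
      serHom QBar f (linForm q Q i))
    {P : MvPolynomial (Fin m) (Polynomial QBar)} (hP : P ∈ relIdeal f) :
    delta (Polynomial.derivative (R := QBar)) T (linForm q Q) P ∈ relIdeal f := by
  rw [relIdeal, RingHom.mem_ker] at hP ⊢
  suffices serHom QBar f (delta (Polynomial.derivative (R := QBar)) T (linForm q Q) P) =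
      (T : PowerSeries QBar) * PowerSeries.derivative QBar (serHom QBar f P) by
    rw [this, hP, map_zero, mul_zero]
  clear hP
  induction P using MvPolynomial.induction_on with
  | C a =>
    rw [delta, ← monomial_zero', coeffDer_monomial (map_zero _), monomial_zero']
    simp [serHom, PowerSeries.derivative_coe]
  | add p r hp hr => rw [delta_add (map_add _), map_add, hp, hr, map_add, map_add, mul_add]
  | mul_X p i hp =>
    have hX : delta (Polynomial.derivative (R := QBar)) T (linForm q Q) (X i) = linForm q Q i := by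
      rw [delta, X, coeffDer_monomial (map_zero _), Polynomial.derivative_one, map_zero, mul_zero,
        zero_add,
        Finset.sum_eq_single i (fun l _ hl => ?_) (fun h => absurd (mem_univ _) h)]
      · rw [← X, pderiv_X_self, mul_one]
      · rw [← X, pderiv_X_of_ne (Ne.symm hl), mul_zero]
    rw [delta_mul (map_add _) (fun a b => Polynomial.derivative_mul), hX, map_add, map_mul,
      map_mul, hp, ← hf, map_mul, Derivation.leibniz, smul_eq_mul, smul_eq_mul]
    simp only [serHom, coe_eval₂Hom, eval₂_X]
    ring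

/-- A solution orthogonal at `α` to the relations is orthogonal to them. -/
theorem pairing_rel_eq_zero
    (hf : ∀ i, (T : PowerSeries QBar) *
      PowerSeries.derivative QBar (PowerSeries.map (algebraMap ℚ QBar) (f i)) =
      serHom QBar f (linForm q Q i))
    (hα : T.eval α ≠ 0) (hΔ : IsClosedUnder (linForm q Q) Δ) {Z : Δ → PowerSeries QBar}
    (hZ : IsPointSolution α T (linForm q Q) Δ Z)
    (h0 : ∀ v ∈ relValues f α Δ, ∑ μ, v μ * PowerSeries.constantCoeff (Z μ) = 0)
    {P : MvPolynomial (Fin m) (Polynomial QBar)} (hP : P ∈ relIdeal f) (hPs : P.support ⊆ Δ) :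
    pairing Δ Z (MvPolynomial.map (atAlg α) P) = 0 := by
  have hu : IsUnit (atAlg α T) := PowerSeries.isUnit_iff_constantCoeff.2
    (isUnit_iff_ne_zero.2 (by rwa [constantCoeff_atAlg]))
  suffices H : ∀ k, ∀ P ∈ relIdeal f, P.support ⊆ Δ →
      PowerSeries.X ^ k ∣ pairing Δ Z (MvPolynomial.map (atAlg α) P) from
    PowerSeries.ext fun k => by
      rw [map_zero]
      exact PowerSeries.X_pow_dvd_iff.1 (H (k + 1) P hP hPs) k (Nat.lt_succ_self k)
  intro k
  induction k with
  | zero => exact fun P _ _ => by rw [pow_zero]; exact one_dvd _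
  | succ k ih =>
    intro P hP hPs
    have h2 := ih _ (delta_mem_relIdeal hf hP) (support_delta (T := T) hPs hΔ)
    rw [← map_delta (atAlg α) (derivative_atAlg α) (map_zero _), ← pointDelta,
      pairing_pointDelta hZ ((support_map_subset _ _).trans hPs), hu.dvd_mul_left,
      PowerSeries.X_pow_dvd_iff] at h2
    rw [PowerSeries.X_pow_dvd_iff]
    intro i hi
    rcases i with _ | i
    · rw [PowerSeries.coeff_zero_eq_constantCoeff_apply, pairing, map_sum,
        ← h0 (fun μ => (P.coeff μ).eval α) ⟨P, hP, hPs, fun μ => rfl⟩]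
      simp only [map_mul, coeff_map, constantCoeff_atAlg]
    · have h3 := h2 i (by omega)
      rw [PowerSeries.coeff_derivative] at h3
      exact (mul_eq_zero.1 h3).resolve_right (Nat.cast_add_one_ne_zero i)

/-- A killed form pairs to a constant. -/
theorem pairing_eq_zero_of_killed (hα : T.eval α ≠ 0) {Z : Δ → PowerSeries QBar}
    (hZ : IsPointSolution α T lin Δ Z) {w : MvPolynomial (Fin m) (PowerSeries QBar)}
    (hw : w.support ⊆ Δ) (hδ : pointDelta α T lin w = 0)
    (h0 : ∑ μ : Δ, PowerSeries.constantCoeff (w.coeff μ) * PowerSeries.constantCoeff (Z μ) = 0) :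
    pairing Δ Z w = 0 := by
  have h := pairing_pointDelta hZ hw
  rw [hδ] at h
  refine eq_zero_of_mul_derivative (T := atAlg α T) (fun h1 => hα ?_) ?_ ?_
  · rw [← constantCoeff_atAlg α T, h1, map_zero]
  · rw [← h]
    simp [pairing]
  · simpa [pairing] using h0

/-- Solutions with given initial values. -/
theorem exists_pointSolution (hα : T.eval α ≠ 0) (y₀ : Δ → QBar) :
    ∃ Z, IsPointSolution α T lin Δ Z ∧ ∀ μ, PowerSeries.constantCoeff (Z μ) = y₀ μ :=
  exists_series_solution (by rwa [constantCoeff_atAlg])
    (fun μ ν => atAlg α (derMatrix lin Δ μ ν)) y₀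

theorem dual_apply (ψ : Module.Dual QBar (Δ → QBar)) (v : Δ → QBar) :
    ∑ μ, v μ * ψ (Pi.single μ 1) = ψ v := by
  classical
  conv_rhs => rw [pi_eq_sum_univ' v, map_sum]
  exact Finset.sum_congr rfl fun μ _ => by rw [map_smul, smul_eq_mul]

/-- **A killed form in the extended relations has for initial value the value of a relation.** -/
theorem mem_relValues_of_mem_pointIdeal
    (hf : ∀ i, (T : PowerSeries QBar) *
      PowerSeries.derivative QBar (PowerSeries.map (algebraMap ℚ QBar) (f i)) =
      serHom QBar f (linForm q Q i))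
    (hα : T.eval α ≠ 0) (hΔ : IsClosedUnder (linForm q Q) Δ)
    {w : MvPolynomial (Fin m) (PowerSeries QBar)} (hw : w.support ⊆ Δ)
    (hmem : MvPolynomial.map serPoint w ∈ pointIdeal f α) :
    (fun μ : Δ => PowerSeries.constantCoeff (w.coeff μ)) ∈ relValues f α Δ := by
  classical
  by_contra hcon
  obtain ⟨ψ, hψ, hψS⟩ := Submodule.exists_dual_map_eq_bot_of_notMem hcon inferInstance
  obtain ⟨Z, hZ, hZ0⟩ := exists_pointSolution (lin := linForm q Q) hα fun μ : Δ =>
    ψ (Pi.single μ 1)
  have hrel : ∀ P ∈ relIdeal f, P.support ⊆ Δ →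
      pairing Δ Z (MvPolynomial.map (atAlg α) P) = 0 := fun P hP hPs =>
    pairing_rel_eq_zero hf hα hΔ hZ (fun v hv => by
      simp only [hZ0]
      rw [dual_apply]
      have h1 : ψ v ∈ (relValues f α Δ).map ψ := Submodule.mem_map_of_mem hv
      rwa [hψS, Submodule.mem_bot] at h1) hP hPs
  let _ : Algebra RatField PointField := (ratToPoint α).toAlgebra
  rw [pointIdeal_eq] at hmem
  obtain ⟨s, hs⟩ := exists_decomposition (k := RatField) (MvPolynomial.map serPoint w)
  obtain ⟨b, hb⟩ : ∃ b, b = Module.Basis.ofVectorSpace RatField PointField := ⟨_, rfl⟩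
  rw [← hb] at hs
  have hzero : serPoint (pairing Δ Z w) = 0 := by
    rw [pairing, map_sum]
    simp only [map_mul, ← coeff_map serPoint w]
    rw [hs]
    simp only [coeff_sum, coeff_C_mul, Finset.sum_mul]
    rw [Finset.sum_comm]
    refine Finset.sum_eq_zero fun i _ => ?_
    simp only [mul_assoc, ← Finset.mul_sum]
    rw [mul_eq_zero]
    right
    obtain ⟨P, hP⟩ : ∃ P, P = projPoly (b.coord i) (MvPolynomial.map serPoint w) := ⟨_, rfl⟩
    rw [← hP]
    have hPk : evalFun f P = 0 := hP ▸ projPoly_mem (I := RingHom.ker (evalFun f)) hmem _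
    have hPs : P.support ⊆ Δ := hP ▸ (support_projPoly _ _).trans
      ((support_map_subset _ _).trans hw)
    obtain ⟨d, P₀, hd, hsupp, h⟩ := exists_clear P
    have h1 := congrArg serPoint (hrel P₀ (serHom_eq_zero_of_clear hPk h) (hsupp.trans hPs))
    have h2 : ∀ μ, serPoint (atAlg α (P₀.coeff μ)) =
        serPoint (atAlg α d) * algebraMap RatField PointField (P.coeff μ) := fun μ => by
      have h3 := congrArg (fun R => ratToPoint α (R.coeff μ)) h
      simp only [coeff_map, coeff_C_mul, map_mul, ratToPoint_algebraMap] at h3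
      exact h3
    simp only [pairing, map_sum, map_mul, coeff_map, map_zero, h2, mul_assoc,
      ← Finset.mul_sum] at h1
    simp only [coeff_map]
    refine (mul_eq_zero.1 h1).resolve_left fun h4 => hd ?_
    exact serPoint_atAlg_injective α (h4.trans (map_zero _).symm)
  have h := congrArg PowerSeries.constantCoeff (serPoint_injective (hzero.trans (map_zero _).symm))
  simp only [pairing, map_sum, map_mul, map_zero, hZ0] at h
  exact hψ ((dual_apply ψ _).symm.trans h)

/-- **A killed form whose initial value is the value of a relation is in the extended relations.**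
-/
theorem mem_pointIdeal_of_mem_relValues
    (hf : ∀ i, (T : PowerSeries QBar) *
      PowerSeries.derivative QBar (PowerSeries.map (algebraMap ℚ QBar) (f i)) =
      serHom QBar f (linForm q Q i))
    (hα : T.eval α ≠ 0) (hΔ : IsClosedUnder (linForm q Q) Δ)
    {w : MvPolynomial (Fin m) (PowerSeries QBar)} (hw : w.support ⊆ Δ)
    (hδ : pointDelta α T (linForm q Q) w = 0)
    (h0 : (fun μ : Δ => PowerSeries.constantCoeff (w.coeff μ)) ∈ relValues f α Δ) :
    MvPolynomial.map serPoint w ∈ pointIdeal f α := by
  classical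
  obtain ⟨S, hS⟩ : ∃ S, S = relValues f α Δ := ⟨_, rfl⟩
  rw [← hS] at h0
  let bS := Module.finBasis QBar S
  let bQ := Module.finBasis QBar ((Δ → QBar) ⧸ S)
  obtain ⟨ψ, hψ⟩ : ∃ ψ : Fin (Module.finrank QBar ((Δ → QBar) ⧸ S)) →
      Module.Dual QBar (Δ → QBar), ψ = fun j => (bQ.coord j).comp S.mkQ := ⟨_, rfl⟩
  choose P hP hPs hPv using fun k => show ((bS k : S) : Δ → QBar) ∈ relValues f α Δ from
    hS ▸ (bS k).2
  choose Z hZ hZ0 using fun j => exists_pointSolution (lin := linForm q Q) (Δ := Δ) hα
    fun μ => ψ j (Pi.single μ 1)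
  have hann : ∀ j, ∀ v ∈ relValues f α Δ, ∑ μ, v μ * PowerSeries.constantCoeff (Z j μ) = 0 :=
    fun j v hv => by
      simp only [hZ0]
      rw [dual_apply]
      rw [hψ, LinearMap.comp_apply, Submodule.mkQ_apply,
        (Submodule.Quotient.mk_eq_zero S).2 (hS ▸ hv), map_zero]
  obtain ⟨G, hG⟩ : ∃ G : Matrix (Fin (Module.finrank QBar ((Δ → QBar) ⧸ S))) Δ PointField,
      G = Matrix.of fun j μ => serPoint (Z j μ) := ⟨_, rfl⟩
  obtain ⟨v, hv⟩ : ∃ v : Fin (Module.finrank QBar S) → Δ → PointField,
      v = fun k (μ : Δ) => serPoint (atAlg α ((P k).coeff μ.1)) := ⟨_, rfl⟩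
  have hP0 : LinearIndependent QBar fun k (μ : Δ) =>
      PowerSeries.constantCoeff (atAlg α ((P k).coeff μ.1)) := by
    have h1 : LinearIndependent QBar fun k => ((bS k : S) : Δ → QBar) :=
      bS.linearIndependent.map' S.subtype S.ker_subtype
    have h2 : (fun k (μ : Δ) => PowerSeries.constantCoeff (atAlg α ((P k).coeff μ.1))) =
        fun k => ((bS k : S) : Δ → QBar) :=
      funext fun k => funext fun μ => by rw [constantCoeff_atAlg, hPv]
    rw [h2]
    exact h1
  have hvli : LinearIndependent PointField v := by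
    have h3 := linearIndependent_serPoint (fun k (μ : Δ) => atAlg α ((P k).coeff μ.1)) hP0
    rw [hv]
    exact h3
  have hGrow : LinearIndependent PointField G.row := by
    suffices hZli : LinearIndependent QBar fun j (μ : Δ) => PowerSeries.constantCoeff (Z j μ) by
      have h5 := linearIndependent_serPoint Z hZli
      rw [hG]
      exact h5
    simp only [hZ0]
    rw [Fintype.linearIndependent_iff]
    intro c hc j
    obtain ⟨x, hx⟩ := S.mkQ_surjective (bQ j)
    have h2 : ∀ μ, ∑ i, c i * ψ i (Pi.single μ 1) = 0 := fun μ => by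
      simpa using congrFun hc μ
    have h3 : ∑ i, c i * ψ i x = 0 := by
      simp only [← dual_apply (ψ _) x, Finset.mul_sum]
      rw [Finset.sum_comm]
      simp only [mul_left_comm (c _), ← Finset.mul_sum, h2, mul_zero, Finset.sum_const_zero]
    simpa [hψ, hx, Finsupp.single_apply] using h3
  have hker : Module.finrank PointField (LinearMap.ker G.mulVecLin) = Module.finrank QBar S := by
    have h1 := LinearMap.finrank_range_add_finrank_ker G.mulVecLin
    have h2 := S.finrank_quotient_add_finrank
    have h3 : G.rank = Module.finrank QBar ((Δ → QBar) ⧸ S) := by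
      rw [hGrow.rank_matrix, Fintype.card_fin]
    rw [Matrix.rank] at h3
    simp only [Module.finrank_fintype_fun_eq_card] at h1 h2
    omega
  have hpair : ∀ (j) (u : MvPolynomial (Fin m) (PowerSeries QBar)),
      pairing Δ (Z j) u = 0 → (G.mulVec fun μ => serPoint (u.coeff μ)) j = 0 := fun j u hu => by
    rw [← map_zero serPoint, ← hu]
    simp [Matrix.mulVec, dotProduct, pairing, hG, mul_comm]
  have hspan : Submodule.span PointField (Set.range v) = LinearMap.ker G.mulVecLin := by
    refine Submodule.eq_of_le_of_finrank_eq (Submodule.span_le.2 ?_) ?_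
    · rintro _ ⟨k, rfl⟩
      rw [SetLike.mem_coe, LinearMap.mem_ker, Matrix.mulVecLin_apply, hv]
      funext j
      have h1 := hpair j (MvPolynomial.map (atAlg α) (P k))
        (pairing_rel_eq_zero hf hα hΔ (hZ j) (hann j) (hP k) (hPs k))
      simpa [coeff_map] using h1
    · rw [finrank_span_eq_card hvli, Fintype.card_fin, hker]
  have hwker : (fun μ : Δ => serPoint (w.coeff μ)) ∈ LinearMap.ker G.mulVecLin := by
    rw [LinearMap.mem_ker, Matrix.mulVecLin_apply]
    funext j
    exact hpair j w (pairing_eq_zero_of_killed hα (hZ j) hw hδ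
      (hann j _ (hS ▸ h0)))
  rw [← hspan, Submodule.mem_span_range_iff_exists_fun] at hwker
  obtain ⟨c, hc⟩ := hwker
  have hwe : MvPolynomial.map serPoint w =
      ∑ k, C (c k) * MvPolynomial.map (serPoint.comp (atAlg α)) (P k) := by
    ext μ
    rw [coeff_map, coeff_sum]
    simp only [coeff_C_mul, coeff_map, RingHom.comp_apply]
    by_cases hμ : μ ∈ Δ
    · have h1 := congrFun hc ⟨μ, hμ⟩
      simp only [Finset.sum_apply, Pi.smul_apply, smul_eq_mul, hv] at h1
      exact h1.symm
    · rw [notMem_support_iff.1 fun h => hμ (hw h), map_zero]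
      refine (Finset.sum_eq_zero fun k _ => ?_).symm
      rw [notMem_support_iff.1 fun h => hμ (hPs k h)]
      simp
  rw [hwe]
  exact Ideal.sum_mem _ fun k _ => Ideal.mul_mem_left _ _ (Ideal.mem_map_of_mem _ (hP k))

end FA.BeukersTheorem
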