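import Mathlib.Analysis.Complex.TaylorSeries
import Mathlib.Analysis.Complex.Liouville
import Mathlib.FieldTheory.AlgebraicClosure
import Mathlib.Analysis.Analytic.IsolatedZeros
import Fermat.Agent.SiegelShidlovskii.AlgebraicIndependence

/-!
# Polynomials in E-functions as entire functions

A polynomial in `z` and in E-functions with rational coefficients is a power series converging to
an entire function; an entire function of polynomial growth is a polynomial.
-/

set_option autoImplicit false

noncomputable section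

namespace FA.BeukersTheorem

open Finset Filter Topology
open scoped Nat
open FA.SiegelShidlovskii (IsEFunction cval monomialSeries)

variable {m : ℕ} {f : Fin m → PowerSeries ℚ}

/-- A polynomial in `X` and the series, as a series. -/
def serHom (R : Type*) [CommRing R] [Algebra ℚ R] (f : Fin m → PowerSeries ℚ) :
    MvPolynomial (Fin m) (Polynomial R) →+* PowerSeries R :=
  MvPolynomial.eval₂Hom Polynomial.coeToPowerSeries.ringHom
    fun i => PowerSeries.map (algebraMap ℚ R) (f i)

/-- A polynomial in `X` and the series, as a function. -/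
def funHom (f : Fin m → PowerSeries ℚ) (z : ℂ) : MvPolynomial (Fin m) (Polynomial ℂ) →+* ℂ :=
  MvPolynomial.eval₂Hom (Polynomial.evalRingHom z) fun i => cval (f i) z

theorem hasSum_coe_mul {g : PowerSeries ℂ} {z v : ℂ}
    (h : HasSum (fun k => PowerSeries.coeff k g * z ^ k) v) (c : Polynomial ℂ) :
    HasSum (fun k => PowerSeries.coeff k ((c : PowerSeries ℂ) * g) * z ^ k) (c.eval z * v) := by
  induction c using Polynomial.induction_on' with
  | add p q hp hq =>
    simpa [Polynomial.coe_add, add_mul, map_add, Polynomial.eval_add] using hp.add hq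
  | monomial n a =>
    rw [Polynomial.eval_monomial, ← hasSum_nat_add_iff' n, Finset.sum_eq_zero fun i hi => by
      rw [mem_range] at hi
      rw [Polynomial.coe_monomial, PowerSeries.monomial_eq_C_mul_X_pow, mul_assoc,
        PowerSeries.coeff_C_mul, PowerSeries.coeff_X_pow_mul', if_neg (by omega)]
      simp, sub_zero]
    refine (HasSum.mul_left (a * z ^ n) h).congr_fun fun k => ?_
    rw [Polynomial.coe_monomial, PowerSeries.monomial_eq_C_mul_X_pow, mul_assoc,
      PowerSeries.coeff_C_mul, PowerSeries.coeff_X_pow_mul', if_pos (Nat.le_add_left n k),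
      Nat.add_sub_cancel, pow_add]
    ring

/-- The series converges to the function. -/
theorem hasSum_funHom (hE : ∀ i, IsEFunction (f i)) (P : MvPolynomial (Fin m) (Polynomial ℂ))
    (z : ℂ) :
    HasSum (fun k => PowerSeries.coeff k (serHom ℂ f P) * z ^ k) (funHom f z P) := by
  induction P using MvPolynomial.induction_on' with
  | monomial μ c =>
    obtain ⟨hμ, hval⟩ := FA.SiegelShidlovskii.monomialSeries_spec hE μ z
    rw [serHom, funHom, MvPolynomial.eval₂Hom_monomial, MvPolynomial.eval₂Hom_monomial,
      Finsupp.prod_fintype _ _ (by simp), Finsupp.prod_fintype _ _ (by simp), ← hval,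
      Finset.prod_congr rfl fun i _ => (map_pow (PowerSeries.map (algebraMap ℚ ℂ)) (f i) _).symm,
      ← map_prod, Polynomial.coeToPowerSeries.ringHom_apply, Polynomial.coe_evalRingHom]
    refine hasSum_coe_mul ?_ c
    refine (hμ.expGrowth.chasVal z).congr_fun fun k => ?_
    rw [PowerSeries.coeff_map, eq_ratCast]
    rfl
  | add p q hp hq =>
    simpa only [map_add, add_mul] using hp.add hq

/-- A series with sum zero everywhere vanishes. -/
theorem series_eq_zero {g : PowerSeries ℂ}
    (h : ∀ z : ℂ, HasSum (fun k => PowerSeries.coeff k g * z ^ k) 0) : g = 0 := by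
  have hp : HasFPowerSeriesAt (fun _ : ℂ => (0 : ℂ))
      (FormalMultilinearSeries.ofScalars ℂ fun k => PowerSeries.coeff k g) 0 := by
    rw [hasFPowerSeriesAt_iff]
    refine Filter.Eventually.of_forall fun z => ?_
    refine (h z).congr_fun fun k => ?_
    rw [smul_eq_mul, mul_comm, FormalMultilinearSeries.coeff_ofScalars]
  ext k
  have h1 := congrArg (fun p => p.coeff k) hp.eq_zero
  simp only [FormalMultilinearSeries.coeff_ofScalars] at h1
  rw [map_zero, h1]
  rfl

theorem serHom_eq_zero_iff (hE : ∀ i, IsEFunction (f i))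
    (P : MvPolynomial (Fin m) (Polynomial ℂ)) : serHom ℂ f P = 0 ↔ ∀ z, funHom f z P = 0 := by
  refine ⟨fun h z => ?_, fun h => series_eq_zero fun z => h z ▸ hasSum_funHom hE P z⟩
  refine (hasSum_funHom hE P z).unique ?_
  simp [h, hasSum_zero]

theorem differentiable_funHom (hE : ∀ i, IsEFunction (f i))
    (P : MvPolynomial (Fin m) (Polynomial ℂ)) : Differentiable ℂ fun z => funHom f z P := by
  induction P using MvPolynomial.induction_on with
  | C a => simpa [funHom] using a.differentiable
  | add p q hp hq =>
    simp only [map_add]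
    exact hp.add hq
  | mul_X p i hp =>
    simp only [map_mul]
    refine hp.mul fun z => ?_
    simpa [funHom] using ((hE i).expGrowth.chasDerivAt z).differentiableAt

/-- The bound of a polynomial by its coefficients. -/
theorem norm_eval_le (p : Polynomial ℂ) {N : ℕ} (hN : p.natDegree ≤ N) (z : ℂ) :
    ‖p.eval z‖ ≤ (∑ i ∈ range (N + 1), ‖p.coeff i‖) * (1 + ‖z‖) ^ N := by
  rw [Polynomial.eval_eq_sum_range' (Nat.lt_succ_of_le hN), Finset.sum_mul]
  refine (norm_sum_le _ _).trans (Finset.sum_le_sum fun i hi => ?_)
  rw [norm_mul, norm_pow]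
  refine mul_le_mul_of_nonneg_left ((pow_le_pow_left₀ (norm_nonneg z)
    (le_add_of_nonneg_left zero_le_one) i).trans (pow_le_pow_right₀
      (le_add_of_nonneg_right (norm_nonneg z)) (Nat.le_of_lt_succ (mem_range.1 hi))))
    (norm_nonneg _)

/-- **An entire function of polynomial growth is a polynomial.** -/
theorem exists_polynomial_of_growth {H : ℂ → ℂ} (hH : Differentiable ℂ H) {c : ℝ} {N : ℕ}
    (hb : ∀ z, ‖H z‖ ≤ c * (1 + ‖z‖) ^ N) : ∃ p : Polynomial ℂ, ∀ z, H z = p.eval z := by
  have hc : 0 ≤ c := by simpa using (norm_nonneg _).trans (hb 0)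
  have hzero : ∀ k, N < k → iteratedDeriv k H 0 = 0 := fun k hk => by
    have hle : ∀ᶠ R : ℝ in atTop, ‖iteratedDeriv k H 0‖ ≤ (k ! : ℝ) * c * 2 ^ N * R⁻¹ := by
      filter_upwards [eventually_ge_atTop (1 : ℝ)] with R hR
      refine (Complex.norm_iteratedDeriv_le_of_forall_mem_sphere_norm_le k (by linarith)
        hH.diffContOnCl fun w hw => (hb w).trans (mul_le_mul_of_nonneg_left
          (pow_le_pow_left₀ (by positivity) (b := 2 * R) ?_ N) hc)).trans ?_
      · rw [mem_sphere_zero_iff_norm] at hw
        linarith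
      · rw [div_le_iff₀ (by positivity), mul_pow]
        have h1 : R ^ (N + 1) ≤ R ^ k := pow_le_pow_right₀ hR hk
        have h2 : R ^ N ≤ R⁻¹ * R ^ k := by
          refine le_trans (le_of_eq ?_) (mul_le_mul_of_nonneg_left h1 (by positivity))
          rw [pow_succ']
          field_simp
        calc (k ! : ℝ) * (c * (2 ^ N * R ^ N)) ≤ (k ! : ℝ) * (c * (2 ^ N * (R⁻¹ * R ^ k))) := by
              gcongr
          _ = _ := by ring
    have hlim : Tendsto (fun R : ℝ => (k ! : ℝ) * c * 2 ^ N * R⁻¹) atTop (𝓝 0) := by
      simpa using tendsto_inv_atTop_zero.const_mul ((k ! : ℝ) * c * 2 ^ N)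
    exact norm_le_zero_iff.1 (ge_of_tendsto hlim hle)
  refine ⟨∑ k ∈ range (N + 1), Polynomial.monomial k ((k ! : ℂ)⁻¹ * iteratedDeriv k H 0),
    fun z => ?_⟩
  have h := Complex.hasSum_taylorSeries_of_entire hH 0 z
  rw [← h.tsum_eq, tsum_eq_sum (s := range (N + 1)) fun k hk => by
    rw [hzero k (by rw [mem_range] at hk; omega), smul_zero, smul_zero], Polynomial.eval_finsetSum]
  refine Finset.sum_congr rfl fun k _ => ?_
  rw [Polynomial.eval_monomial, sub_zero, smul_eq_mul, smul_eq_mul]
  ring

end FA.BeukersTheorem
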